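import Fermat.Agent.S26.FF.Riemann

/-! # S26 / M1 : function fields of one variable over an arbitrary constant field: REQUIRED API.

Reference: Stichtenoth, *Algebraic function fields and codes*, Chapter 1 (1.1.5, 1.1.6, 1.1.15, 1.1.19,
1.3.1, 1.3.3, 1.3.4, 1.4.6–1.4.11, 1.4.14–1.4.17).  All proofs there are valuation theoretic and work for an
arbitrary constant field (no separability, no Dedekind domains needed).

The statements of the API (all in namespace `Fermat.Agent.S26`) now live in
* `FF/Alg.lean`: `ord_eq_zero_of_isAlgebraic`, `finiteDimensional_adjoin_of_transcendental`, ...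
* `FF/DVR.lean`: `exists_place_of_valuationSubring`
* `FF/Residue.lean`: `finite_residueField`, `deg_pos`
* `FF/Exists.lean`: `exists_place_of_subalgebra`, `exists_ord_pos`, `exists_ord_neg`
* `FF/Approx.lean`: `exists_approx`, `exists_ord_eq`
* `FF/Indep.lean`: `sum_ord_mul_deg_le_finrank`
* `FF/DivisorOf.lean`: `finite_ord_ne_zero`, `divisorOf`, `divisorOf_apply`, `zeroDivisor`, `poleDivisor`
* `FF/LSpace.lean`: `LSpace_mono`, `finite_LSpace`, `finrank_LSpace_add_single_le`, `finrank_LSpace_add_divisorOf`
* `FF/Degree.lean`: `sum_zeros_eq_finrank`, `degree_divisorOf`, `LSpace_eq_bot_of_degree_neg`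
* `FF/Riemann.lean`: `exists_genus`
-/
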