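import Fermat.Agent.S26.FF.Defs

/-! # S26 / M1-Alg : algebraic / transcendental elements, and the linear independence criterion over `Ω(x)`.

Reference: Stichtenoth, *Algebraic function fields and codes*, 1.1.5, and the "clearing denominators" argument
used in 1.1.7, 1.1.15, 1.3.3, 1.4.11. -/

set_option autoImplicit false

namespace Fermat.Agent.S26

open AlgebraicCurve IntermediateField Polynomial

variable {Ω 𝕃 : Type*} [Field Ω] [Field 𝕃] [Algebra Ω 𝕃]

/-- valuation rings are integrally closed. -/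
theorem mem_valuationSubring_of_isAlgebraic (A : ValuationSubring 𝕃)
    (hΩ : ∀ a : Ω, algebraMap Ω 𝕃 a ∈ A) {x : 𝕃} (hx : IsAlgebraic Ω x) : x ∈ A := by
  let _ : Algebra Ω A := ((algebraMap Ω 𝕃).codRestrict A.toSubring hΩ).toAlgebra
  have : IsScalarTower Ω A 𝕃 := IsScalarTower.of_algebraMap_eq fun _ => rfl
  have h1 : IsIntegral Ω x := hx.isIntegral
  have h2 : IsIntegral A x := h1.tower_top
  obtain ⟨y, hy⟩ := (IsIntegrallyClosed.isIntegral_iff (R := A) (K := 𝕃)).mp h2
  rw [← hy]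
  exact y.2

theorem ord_eq_zero_of_isAlgebraic (v : Place Ω 𝕃) {x : 𝕃} (hx : IsAlgebraic Ω x) (hx0 : x ≠ 0) :
    v.ord x = 0 := by
  have h1 := Fermat.Agent.S24.FF.ord_nonneg_of_mem v
    (mem_valuationSubring_of_isAlgebraic v.toValuationSubring v.algebraMap_mem' hx)
  have h2 := Fermat.Agent.S24.FF.ord_nonneg_of_mem v
    (mem_valuationSubring_of_isAlgebraic v.toValuationSubring v.algebraMap_mem' hx.inv)
  rw [v.ord_inv] at h2
  omega

theorem transcendental_of_ord_ne_zero (v : Place Ω 𝕃) {x : 𝕃} (h : v.ord x ≠ 0) :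
    Transcendental Ω x := by
  intro hx
  exact h (ord_eq_zero_of_isAlgebraic v hx (Fermat.Agent.S24.FF.ne_zero_of_ord_ne_zero v h))

theorem exists_transcendental [FF1 Ω 𝕃] : ∃ x : 𝕃, Transcendental Ω x := by
  by_contra hcon
  have : Algebra.IsAlgebraic Ω 𝕃 := ⟨fun x => by
    by_contra hx
    exact hcon ⟨x, hx⟩⟩
  have h1 := FF1.trdeg_eq_one (Ω := Ω) (𝕃 := 𝕃)
  rw [trdeg_eq_zero] at h1
  exact zero_ne_one h1

theorem finiteDimensional_adjoin_of_transcendental [FF1 Ω 𝕃] {x : 𝕃} (hx : Transcendental Ω x) :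
    FiniteDimensional Ω⟮x⟯ 𝕃 := by
  have h1 := FF1.trdeg_eq_one (Ω := Ω) (𝕃 := 𝕃)
  have h2 := trdeg_add_eq Ω Ω⟮x⟯ (A := 𝕃)
  have h3 : Algebra.trdeg Ω Ω⟮x⟯ ≠ 0 := by
    rw [trdeg_ne_zero_iff]
    refine ⟨⟨AdjoinSimple.gen Ω x, ?_⟩⟩
    intro h
    apply hx
    have := h.algebraMap (A := 𝕃)
    simpa using this
  have h4 : Algebra.trdeg Ω⟮x⟯ 𝕃 = 0 := by
    rw [h1] at h2
    by_contra h5
    have h6 : 1 ≤ Algebra.trdeg Ω Ω⟮x⟯ := Cardinal.one_le_iff_ne_zero.mpr h3
    have h7 : 1 ≤ Algebra.trdeg Ω⟮x⟯ 𝕃 := Cardinal.one_le_iff_ne_zero.mpr h5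
    have h8 := add_le_add h6 h7
    rw [h2, one_add_one_eq_two] at h8
    exact absurd h8 (not_le.mpr Cardinal.one_lt_two)
  have h5 : Algebra.IsAlgebraic Ω⟮x⟯ 𝕃 := trdeg_eq_zero_iff.mp h4
  have h6 : Algebra.EssFiniteType Ω 𝕃 := FF1.essFiniteType
  have h7 : Algebra.EssFiniteType Ω⟮x⟯ 𝕃 := Algebra.EssFiniteType.of_comp Ω Ω⟮x⟯ 𝕃
  exact Algebra.finite_of_essFiniteType_of_isAlgebraic

namespace Alg

/-- every polynomial relation is divisible by `X ^ n`. -/
theorem X_pow_dvd_of_relation {ι : Type*} [Fintype ι] {x : 𝕃} (hx0 : x ≠ 0) (z : ι → 𝕃)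
    (H : ∀ φ : ι → Polynomial Ω, ∑ i, aeval x (φ i) * z i = 0 → ∀ i, (φ i).coeff 0 = 0) (n : ℕ) :
    ∀ φ : ι → Polynomial Ω, ∑ i, aeval x (φ i) * z i = 0 → ∀ i, (X : Polynomial Ω) ^ n ∣ φ i := by
  induction n with
  | zero => intro φ _ i; simp
  | succ n ih =>
    intro φ hφ i
    have h0 := H φ hφ
    have hdiv : ∀ i, φ i = (φ i).divX * X := by
      intro i
      conv_lhs => rw [← Polynomial.divX_mul_X_add (φ i), h0 i]
      simp
    have hrel : ∑ i, aeval x ((φ i).divX) * z i = 0 := by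
      have : x * ∑ i, aeval x ((φ i).divX) * z i = 0 := by
        rw [← hφ, Finset.mul_sum]
        refine Finset.sum_congr rfl fun i _ => ?_
        conv_rhs => rw [hdiv i]
        simp only [map_mul, aeval_X]
        ring
      exact (mul_eq_zero.mp this).resolve_left hx0
    obtain ⟨c, hc⟩ := ih _ hrel i
    refine ⟨c, ?_⟩
    rw [hdiv i, hc]
    ring

theorem eq_zero_of_relation {ι : Type*} [Fintype ι] {x : 𝕃} (hx0 : x ≠ 0) (z : ι → 𝕃)
    (H : ∀ φ : ι → Polynomial Ω, ∑ i, aeval x (φ i) * z i = 0 → ∀ i, (φ i).coeff 0 = 0)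
    (φ : ι → Polynomial Ω) (hφ : ∑ i, aeval x (φ i) * z i = 0) (i : ι) : φ i = 0 := by
  have h := X_pow_dvd_of_relation hx0 z H ((φ i).natDegree + 1) φ hφ i
  exact Polynomial.eq_zero_of_dvd_of_natDegree_lt h (by simp)

end Alg

/-- Linear independence criterion over `Ω(x)`: if every *polynomial* relation `∑ φ_i(x) z_i = 0` has all
constant terms `φ_i(0) = 0`, then the `z_i` are linearly independent over `Ω(x)`.
Proof: by induction on `n`, `X ^ n ∣ φ i` for every polynomial relation (divide by `x ≠ 0`), so every polynomial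
relation is trivial; a relation over `Ω(x)` becomes polynomial after clearing denominators. -/
theorem linearIndependent_adjoin_of_polynomial {ι : Type*} [Fintype ι] {x : 𝕃}
    (hx : Transcendental Ω x) (z : ι → 𝕃)
    (H : ∀ φ : ι → Polynomial Ω, ∑ i, aeval x (φ i) * z i = 0 → ∀ i, (φ i).coeff 0 = 0) :
    LinearIndependent Ω⟮x⟯ z := by
  classical
  have hx0 : x ≠ 0 := fun h => hx (h ▸ isAlgebraic_zero)
  rw [Fintype.linearIndependent_iff]
  intro g hg
  have hfrac : ∀ i, ∃ r q : Polynomial Ω, q ≠ 0 ∧ (g i : 𝕃) * aeval x q = aeval x r := by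
    intro i
    obtain ⟨r, q, hrq⟩ := (IntermediateField.mem_adjoin_simple_iff Ω (g i : 𝕃)).mp (g i).2
    by_cases hq : q = 0
    · refine ⟨0, 1, one_ne_zero, ?_⟩
      rw [hrq, hq]; simp
    · refine ⟨r, q, hq, ?_⟩
      have : aeval x q ≠ 0 := fun h => hq ((transcendental_iff.mp hx) q h)
      rw [hrq, div_mul_cancel₀ _ this]
  choose r q hq hrq using hfrac
  let Q : Polynomial Ω := ∏ j, q j
  have hQ : Q ≠ 0 := Finset.prod_ne_zero_iff.mpr fun j _ => hq j
  have hQx : aeval x Q ≠ 0 := fun h => hQ ((transcendental_iff.mp hx) Q h)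
  let ψ : ι → Polynomial Ω := fun i => r i * ∏ j ∈ Finset.univ.erase i, q j
  have hψ : ∀ i, aeval x (ψ i) = (g i : 𝕃) * aeval x Q := by
    intro i
    have : Q = q i * ∏ j ∈ Finset.univ.erase i, q j :=
      (Finset.mul_prod_erase Finset.univ q (Finset.mem_univ i)).symm
    simp only [ψ]
    rw [this, map_mul, map_mul, ← hrq i]
    ring
  have hrel : ∑ i, aeval x (ψ i) * z i = 0 := by
    have : ∑ i, aeval x (ψ i) * z i = aeval x Q * ∑ i, g i • z i := by
      rw [Finset.mul_sum]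
      refine Finset.sum_congr rfl fun i _ => ?_
      rw [hψ i, IntermediateField.smul_def, smul_eq_mul]
      ring
    rw [this, hg, mul_zero]
  intro i
  have h0 := Alg.eq_zero_of_relation hx0 z H ψ hrel i
  have h1 := hψ i
  rw [h0, map_zero] at h1
  have h2 : (g i : 𝕃) = 0 := (mul_eq_zero.mp h1.symm).resolve_right hQx
  exact_mod_cast h2

/-- If the `u_j` are linearly independent over `Ω(x)`, the `x ^ i u_j` are linearly independent over `Ω`. -/
theorem linearIndependent_pow_mul {ι : Type*} {x : 𝕃} (hx : Transcendental Ω x) {u : ι → 𝕃}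
    (hu : LinearIndependent Ω⟮x⟯ u) :
    LinearIndependent Ω (fun p : ℕ × ι => x ^ p.1 * u p.2) := by
  have hgen : Transcendental Ω (AdjoinSimple.gen Ω x) := by
    intro h
    apply hx
    have := h.algebraMap (A := 𝕃)
    simpa using this
  have hb : LinearIndependent Ω (fun n : ℕ => (AdjoinSimple.gen Ω x) ^ n) := by
    have h1 := (Polynomial.basisMonomials Ω).linearIndependent.map'
      (aeval (AdjoinSimple.gen Ω x)).toLinearMap
      (LinearMap.ker_eq_bot.mpr (transcendental_iff_injective.mp hgen))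
    have e : (fun n : ℕ => (AdjoinSimple.gen Ω x) ^ n)
        = (aeval (AdjoinSimple.gen Ω x)).toLinearMap ∘ (Polynomial.basisMonomials Ω) := by
      funext n
      simp
    rw [e]
    exact h1
  have := linearIndependent_smul hb hu
  have e : (fun p : ℕ × ι => x ^ p.1 * u p.2)
      = fun p : ℕ × ι => (AdjoinSimple.gen Ω x) ^ p.1 • u p.2 := by
    funext p
    rw [IntermediateField.smul_def, smul_eq_mul]
    simp
  rw [e]
  exact this

end Fermat.Agent.S26
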