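import Fermat.Agent.S26.FF.Basic

/-! # S26 / M3 (general part) : non-special divisors, Riemann's inequality from one sequence of divisors.

Everything here is about one function field `𝕃/Ω`.
* `deg_eq_one_of_isAlgClosed`, `infinite_place`, `finrank_LSpace_zero_of_isAlgClosed`
* `exists_finrank_add_single_eq` : if `ℓ(E) > deg E + 1 - g` one can add a point (outside a given finite set)
  without changing `ℓ(E)`
* `exists_nonspecial_list`, `exists_nonspecial_divisor` : effective divisors of degree `g` with `ℓ = 1`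
* `le_finrank_LSpace_of_forall_nsmul` : Riemann's inequality for all divisors from the inequality for the
  multiples of one divisor of positive degree.
-/

set_option autoImplicit false

namespace Fermat.Agent.S26

open AlgebraicCurve IntermediateField Polynomial

variable {Ω 𝕃 : Type*} [Field Ω] [Field 𝕃] [Algebra Ω 𝕃]

/-- places of a function field over an algebraically closed field have degree one -/
theorem deg_eq_one_of_isAlgClosed [IsAlgClosed Ω] [FF1 Ω 𝕃] (v : Place Ω 𝕃) : v.deg = 1 := by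
  have hfin := finite_residueField (Ω := Ω) v
  have hint : Algebra.IsIntegral Ω v.ResidueField := Algebra.IsIntegral.of_finite Ω v.ResidueField
  have hbij : Function.Bijective (algebraMap Ω v.ResidueField) :=
    IsAlgClosed.algebraMap_bijective_of_isIntegral
  unfold Place.deg
  rw [← (LinearEquiv.ofBijective (Algebra.linearMap Ω v.ResidueField) hbij).finrank_eq,
    Module.finrank_self]

/-- a function field over an infinite constant field has infinitely many places -/
theorem infinite_place [Infinite Ω] [FF1 Ω 𝕃] : Infinite (Place Ω 𝕃) := by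
  obtain ⟨x, hx⟩ := exists_transcendental (Ω := Ω) (𝕃 := 𝕃)
  have htr : ∀ a : Ω, Transcendental Ω (x - algebraMap Ω 𝕃 a) := by
    intro a h
    apply hx
    have := h.add (isAlgebraic_algebraMap (R := Ω) (A := 𝕃) a)
    simpa using this
  choose w hw using fun a : Ω => exists_ord_pos (Ω := Ω) (htr a)
  refine Infinite.of_injective w ?_
  intro a b hab
  by_contra hne
  have h1 := hw a
  have h2 := hw b
  rw [← hab] at h2
  have hxa : x - algebraMap Ω 𝕃 a ≠ 0 := fun h => by rw [h] at h1; simp at h1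
  have hxb : x - algebraMap Ω 𝕃 b ≠ 0 := fun h => by rw [h] at h2; simp at h2
  have hsub : (x - algebraMap Ω 𝕃 b) + -(x - algebraMap Ω 𝕃 a) = algebraMap Ω 𝕃 (a - b) := by
    rw [map_sub]; ring
  have hab0 : algebraMap Ω 𝕃 (a - b) ≠ 0 := by
    simpa [sub_eq_zero] using hne
  have h3 := Fermat.Agent.S24.FF.ord_add (w a) hxb (neg_ne_zero.mpr hxa) (by rw [hsub]; exact hab0)
  rw [hsub, Fermat.Agent.S24.FF.ord_algebraMap, Fermat.Agent.S24.FF.ord_neg] at h3
  omega

/-- an element without poles is a constant (algebraically closed constant field) -/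
theorem mem_range_algebraMap_of_forall_ord_nonneg [IsAlgClosed Ω] [FF1 Ω 𝕃] {f : 𝕃}
    (hf : ∀ v : Place Ω 𝕃, 0 ≤ v.ord f) : f ∈ (algebraMap Ω 𝕃).range := by
  have halg : IsAlgebraic Ω f := by
    by_contra htr
    obtain ⟨v, hv⟩ := exists_ord_neg (Ω := Ω) (x := f) htr
    have := hf v
    omega
  obtain ⟨c, hc⟩ := Fermat.Agent.S24.FF.DegOne.exists_algebraMap_eq_of_isAlgebraic Ω halg
  exact ⟨c, hc⟩

theorem one_mem_LSpace {D : Divisor Ω 𝕃} (hD : ∀ v, 0 ≤ D v) : (1 : 𝕃) ∈ LSpace D :=
  Or.inr fun v => by rw [v.ord_one, zero_add]; exact hD v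

theorem finrank_LSpace_zero_of_isAlgClosed [IsAlgClosed Ω] [FF1 Ω 𝕃] :
    Module.finrank Ω (LSpace (0 : Divisor Ω 𝕃)) = 1 := by
  have h1 : (1 : 𝕃) ∈ LSpace (0 : Divisor Ω 𝕃) := one_mem_LSpace fun v => le_rfl
  rw [finrank_eq_one_iff_of_nonzero' (⟨1, h1⟩ : LSpace (0 : Divisor Ω 𝕃))
    (by intro h; exact one_ne_zero (congrArg Subtype.val h))]
  rintro ⟨f, hf⟩
  have hf' : ∀ v : Place Ω 𝕃, 0 ≤ v.ord f := by
    intro v
    rcases hf with hf | hf
    · rw [hf]; simp
    · simpa using hf v
  obtain ⟨c, hc⟩ := mem_range_algebraMap_of_forall_ord_nonneg hf'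
  refine ⟨c, Subtype.ext ?_⟩
  show c • (1 : 𝕃) = f
  rw [Algebra.smul_def, mul_one, hc]

/-- if `E ≥ 0` and `ℓ(E) = 1` then `L(E)` consists of constants -/
theorem mem_range_algebraMap_of_finrank_LSpace_eq_one {E : Divisor Ω 𝕃} (hE : ∀ v, 0 ≤ E v)
    (h1 : Module.finrank Ω (LSpace E) = 1) {f : 𝕃} (hf : f ∈ LSpace E) :
    f ∈ (algebraMap Ω 𝕃).range := by
  have hone : (1 : 𝕃) ∈ LSpace E := one_mem_LSpace hE
  rw [finrank_eq_one_iff_of_nonzero' (⟨1, hone⟩ : LSpace E)
    (by intro h; exact one_ne_zero (congrArg Subtype.val h))] at h1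
  obtain ⟨c, hc⟩ := h1 ⟨f, hf⟩
  refine ⟨c, ?_⟩
  have := congrArg Subtype.val hc
  simpa [Algebra.smul_def] using this

theorem single_one_nonneg (v w : Place Ω 𝕃) : 0 ≤ (Finsupp.single v (1 : ℤ)) w := by
  classical
  rw [Finsupp.single_apply]
  split_ifs <;> simp

/-- the divisor `∑_{v ∈ T} v` -/
noncomputable def sumDiv (T : Finset (Place Ω 𝕃)) : Divisor Ω 𝕃 := ∑ v ∈ T, Finsupp.single v (1 : ℤ)

theorem sumDiv_apply_of_notMem {T : Finset (Place Ω 𝕃)} {v : Place Ω 𝕃} (hv : v ∉ T) :
    sumDiv T v = 0 := by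
  classical
  unfold sumDiv
  rw [Finsupp.finsetSum_apply]
  refine Finset.sum_eq_zero fun w hw => ?_
  rw [Finsupp.single_apply, if_neg]
  rintro rfl
  exact hv hw

theorem degree_sumDiv_of_deg_eq_one (hdeg : ∀ v : Place Ω 𝕃, v.deg = 1) (T : Finset (Place Ω 𝕃)) :
    Divisor.degree (sumDiv T) = T.card := by
  unfold sumDiv
  rw [map_sum]
  simp [hdeg]

/-- If adding any point outside `S` increases `ℓ(E)`, then adding `k` distinct such points increases it by at
least `k`. -/
theorem add_card_le_finrank_LSpace_add_sumDiv [FF1 Ω 𝕃] (E : Divisor Ω 𝕃) (S : Set (Place Ω 𝕃))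
    (h : ∀ v ∉ S, Module.finrank Ω (LSpace (E + Finsupp.single v 1)) ≠ Module.finrank Ω (LSpace E))
    (T : Finset (Place Ω 𝕃)) (hT : ∀ v ∈ T, v ∉ S) :
    Module.finrank Ω (LSpace E) + T.card ≤ Module.finrank Ω (LSpace (E + sumDiv T)) := by
  classical
  induction T using Finset.induction_on with
  | empty =>
    have h0 : E + sumDiv (∅ : Finset (Place Ω 𝕃)) = E := by
      unfold sumDiv; rw [Finset.sum_empty]; exact add_zero E
    rw [h0]; simp
  | insert v T hvT ih =>
    have ih' := ih fun w hw => hT w (Finset.mem_insert_of_mem hw)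
    have hvS : v ∉ S := hT v (Finset.mem_insert_self v T)
    -- an element of `L(E + v)` not in `L(E)`
    have hle : LSpace E ≤ LSpace (E + Finsupp.single v 1) := LSpace_mono fun w => by
      rw [Finsupp.add_apply]; have := single_one_nonneg v w; omega
    have hfin1 := finite_LSpace (Ω := Ω) (E + Finsupp.single v 1)
    have hne : LSpace E ≠ LSpace (E + Finsupp.single v 1) := fun heq => h v hvS (by rw [← heq])
    obtain ⟨f, hf1, hf2⟩ := SetLike.exists_of_lt (lt_of_le_of_ne hle hne)
    have hsum : E + sumDiv (insert v T) = (E + sumDiv T) + Finsupp.single v 1 := by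
      unfold sumDiv
      rw [Finset.sum_insert hvT]; abel
    rw [hsum]
    have hle2 : LSpace (E + sumDiv T) ≤ LSpace ((E + sumDiv T) + Finsupp.single v 1) :=
      LSpace_mono fun w => by
        rw [Finsupp.add_apply (E + sumDiv T)]; have := single_one_nonneg v w; omega
    have hf3 : f ∈ LSpace ((E + sumDiv T) + Finsupp.single v 1) := by
      refine LSpace_mono (fun w => ?_) hf1
      have h0 : 0 ≤ sumDiv T w := by
        unfold sumDiv
        rw [Finsupp.finsetSum_apply]
        exact Finset.sum_nonneg fun u _ => single_one_nonneg u w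
      simp only [Finsupp.add_apply]
      omega
    have hf4 : f ∉ LSpace (E + sumDiv T) := by
      intro hf4
      apply hf2
      rcases hf4 with hf4 | hf4
      · exact Or.inl hf4
      rcases hf1 with hf1 | hf1
      · exact Or.inl hf1
      refine Or.inr fun w => ?_
      by_cases hw : w = v
      · subst hw
        have := hf4 w
        rw [Finsupp.add_apply, sumDiv_apply_of_notMem hvT] at this
        omega
      · have := hf1 w
        rw [Finsupp.add_apply, Finsupp.single_apply, if_neg (fun h => hw h.symm)] at this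
        omega
    have hlt : LSpace (E + sumDiv T) < LSpace ((E + sumDiv T) + Finsupp.single v 1) :=
      lt_of_le_of_ne hle2 fun heq => hf4 (by rw [heq]; exact hf3)
    have hfin2 := finite_LSpace (Ω := Ω) ((E + sumDiv T) + Finsupp.single v 1)
    have := Submodule.finrank_lt_finrank_of_lt hlt
    rw [Finset.card_insert_of_notMem hvT]
    omega

/-- **Adding a point without changing `ℓ`.**  `g`, `c` as in Riemann's theorem (only the upper bound for divisors of
large degree is used). -/
theorem exists_finrank_add_single_eq [IsAlgClosed Ω] [FF1 Ω 𝕃] {g c : ℤ}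
    (hg : ∀ D : Divisor Ω 𝕃, c ≤ Divisor.degree D →
      (Module.finrank Ω (LSpace D) : ℤ) ≤ Divisor.degree D + 1 - g)
    (E : Divisor Ω 𝕃) (hE : Divisor.degree E + 1 - g < Module.finrank Ω (LSpace E))
    (S : Set (Place Ω 𝕃)) (hS : S.Finite) :
    ∃ v ∉ S, Module.finrank Ω (LSpace (E + Finsupp.single v 1)) = Module.finrank Ω (LSpace E) := by
  classical
  by_contra hcon
  push Not at hcon
  have hinf : Infinite (Place Ω 𝕃) := infinite_place (Ω := Ω)
  have hSc : (Sᶜ).Infinite := hS.infinite_compl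
  obtain ⟨T, hTS, hTcard⟩ := hSc.exists_subset_card_eq (c - Divisor.degree E).toNat
  have h1 := add_card_le_finrank_LSpace_add_sumDiv E S hcon T fun v hv => hTS hv
  have hdeg : Divisor.degree (E + sumDiv T) = Divisor.degree E + T.card := by
    rw [map_add, degree_sumDiv_of_deg_eq_one deg_eq_one_of_isAlgClosed]
  have h2 := hg (E + sumDiv T) (by rw [hdeg, hTcard]; have := Int.self_le_toNat (c - Divisor.degree E); omega)
  rw [hdeg] at h2
  have h1' : (Module.finrank Ω (LSpace E) : ℤ) + T.card ≤ Module.finrank Ω (LSpace (E + sumDiv T)) := by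
    exact_mod_cast h1
  omega

/-- the divisor `∑ v`, `v` running through a list -/
noncomputable def listDiv (l : List (Place Ω 𝕃)) : Divisor Ω 𝕃 :=
  (l.map fun v => Finsupp.single v (1 : ℤ)).sum

@[simp] theorem listDiv_nil : listDiv ([] : List (Place Ω 𝕃)) = 0 := rfl

@[simp] theorem listDiv_cons (v : Place Ω 𝕃) (l : List (Place Ω 𝕃)) :
    listDiv (v :: l) = Finsupp.single v 1 + listDiv l := by
  simp [listDiv]

theorem listDiv_nonneg (l : List (Place Ω 𝕃)) (w : Place Ω 𝕃) : 0 ≤ listDiv l w := by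
  induction l with
  | nil => simp
  | cons v l ih =>
    rw [listDiv_cons, Finsupp.add_apply]
    have := single_one_nonneg v w
    omega

theorem listDiv_apply_of_notMem {l : List (Place Ω 𝕃)} {w : Place Ω 𝕃} (hw : w ∉ l) :
    listDiv l w = 0 := by
  classical
  induction l with
  | nil => simp
  | cons v l ih =>
    rw [List.mem_cons, not_or] at hw
    rw [listDiv_cons, Finsupp.add_apply, ih hw.2, Finsupp.single_apply, if_neg (fun h => hw.1 h.symm)]
    rfl

theorem degree_listDiv_of_deg_eq_one (hdeg : ∀ v : Place Ω 𝕃, v.deg = 1) (l : List (Place Ω 𝕃)) :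
    Divisor.degree (listDiv l) = l.length := by
  induction l with
  | nil => simp
  | cons v l ih =>
    rw [listDiv_cons, map_add, ih, Divisor.degree_single, hdeg, List.length_cons]
    push_cast
    ring

/-- **Non-special divisors**, flexible form: for `n ≤ g` there are places `v₁, …, v_n` outside a finite set `S`,
pairwise in relation `R` (a relation excluding only finitely many places for each given place, e.g. "different
values of `x`"), with `ℓ(v₁ + ⋯ + v_n) = 1`. -/
theorem exists_nonspecial_list [IsAlgClosed Ω] [FF1 Ω 𝕃] {g c : ℤ}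
    (hg : ∀ D : Divisor Ω 𝕃, c ≤ Divisor.degree D →
      (Module.finrank Ω (LSpace D) : ℤ) ≤ Divisor.degree D + 1 - g)
    (S : Set (Place Ω 𝕃)) (hS : S.Finite) (R : Place Ω 𝕃 → Place Ω 𝕃 → Prop)
    (hR : ∀ w, {v | ¬ R v w}.Finite) (n : ℕ) (hn : (n : ℤ) ≤ g) :
    ∃ l : List (Place Ω 𝕃), l.length = n ∧ l.Pairwise R ∧ (∀ v ∈ l, v ∉ S) ∧
      Module.finrank Ω (LSpace (listDiv l)) = 1 := by
  induction n with
  | zero => exact ⟨[], rfl, List.Pairwise.nil, by simp, by
      rw [listDiv_nil]; exact finrank_LSpace_zero_of_isAlgClosed⟩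
  | succ n ih =>
    obtain ⟨l, hl, hpw, hlS, hl1⟩ := ih (by push_cast at hn; omega)
    have hfin : (S ∪ ⋃ w ∈ {w | w ∈ l}, {v | ¬ R v w}).Finite :=
      hS.union ((List.finite_toSet l).biUnion fun w _ => hR w)
    obtain ⟨v, hv, hv1⟩ := exists_finrank_add_single_eq hg (listDiv l) (by
      rw [degree_listDiv_of_deg_eq_one deg_eq_one_of_isAlgClosed, hl, hl1]
      push_cast at hn ⊢
      omega) _ hfin
    rw [Set.mem_union, not_or] at hv
    refine ⟨v :: l, by simp [hl], List.pairwise_cons.mpr ⟨fun w hw => ?_, hpw⟩, ?_, ?_⟩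
    · by_contra hRvw
      exact hv.2 (Set.mem_biUnion (show w ∈ {w | w ∈ l} from hw) hRvw)
    · intro w hw
      rcases List.mem_cons.mp hw with rfl | hw
      · exact hv.1
      · exact hlS w hw
    · rw [listDiv_cons, add_comm, hv1, hl1]

/-- **Non-special divisors.** -/
theorem exists_nonspecial_divisor [IsAlgClosed Ω] [FF1 Ω 𝕃] {g : ℕ} {c : ℤ}
    (hg : ∀ D : Divisor Ω 𝕃, c ≤ Divisor.degree D →
      (Module.finrank Ω (LSpace D) : ℤ) ≤ Divisor.degree D + 1 - g)
    (S : Set (Place Ω 𝕃)) (hS : S.Finite) :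
    ∃ E : Divisor Ω 𝕃, (∀ v, 0 ≤ E v) ∧ (∀ v ∈ S, E v = 0) ∧ Divisor.degree E = g ∧
      Module.finrank Ω (LSpace E) = 1 := by
  obtain ⟨l, hl, -, hlS, hl1⟩ := exists_nonspecial_list hg S hS (fun _ _ => True) (by simp) g le_rfl
  refine ⟨listDiv l, listDiv_nonneg l, fun v hv => listDiv_apply_of_notMem fun hvl => hlS v hvl hv, ?_, hl1⟩
  rw [degree_listDiv_of_deg_eq_one deg_eq_one_of_isAlgClosed, hl]

/-- **Riemann's inequality from one sequence.**  If `ℓ(mP) ≥ m deg P + γ` for all `m` (`deg P > 0`), then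
`ℓ(X) ≥ deg X + γ` for all divisors `X`. -/
theorem le_finrank_LSpace_of_forall_nsmul [FF1 Ω 𝕃] (P : Divisor Ω 𝕃) (hP : 0 < Divisor.degree P) (γ : ℤ)
    (h : ∀ m : ℕ, (m : ℤ) * Divisor.degree P + γ ≤ Module.finrank Ω (LSpace (m • P)))
    (X : Divisor Ω 𝕃) : Divisor.degree X + γ ≤ Module.finrank Ω (LSpace X) := by
  classical
  set Xp : Divisor Ω 𝕃 := X.mapRange (fun n => max 0 n) (by simp) with hXp
  have hXp_apply : ∀ v, Xp v = max 0 (X v) := fun v => by simp [hXp]
  -- choose `m`
  obtain ⟨m, hm⟩ : ∃ m : ℕ, Divisor.degree Xp - γ < (m : ℤ) * Divisor.degree P := by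
    refine ⟨(Divisor.degree Xp - γ).toNat + 1, ?_⟩
    have h1 := Int.self_le_toNat (Divisor.degree Xp - γ)
    push_cast
    nlinarith
  have h1 := finrank_LSpace_le_of_le (Ω := Ω) (D := m • P - Xp) (D' := m • P) (fun v => by
    rw [Finsupp.sub_apply, hXp_apply]
    have := le_max_left 0 (X v)
    omega)
  rw [map_sub] at h1
  have h2 := h m
  have hpos : 0 < Module.finrank Ω (LSpace (m • P - Xp)) := by
    have : (0 : ℤ) < Module.finrank Ω (LSpace (m • P - Xp)) := by linarith
    exact_mod_cast this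
  have hne : LSpace (m • P - Xp) ≠ ⊥ := by
    intro hbot
    rw [hbot, finrank_bot] at hpos
    exact lt_irrefl _ hpos
  obtain ⟨f, hf, hf0⟩ := Submodule.exists_mem_ne_zero_of_ne_bot hne
  have hf' := hf.resolve_left hf0
  have h3 := finrank_LSpace_le_of_le (Ω := Ω) (D := X + divisorOf f⁻¹) (D' := m • P) (fun v => by
    have := hf' v
    rw [Finsupp.sub_apply, hXp_apply] at this
    rw [Finsupp.add_apply, divisorOf_apply, v.ord_inv]
    have := le_max_right 0 (X v)
    omega)
  rw [finrank_LSpace_add_divisorOf X (inv_ne_zero hf0), map_add, degree_divisorOf, map_nsmul] at h3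
  simp only [nsmul_eq_mul] at h3
  linarith

end Fermat.Agent.S26
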