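import Fermat.Agent.S26.FF.DVR

/-! # S26 / M1-Exists : Stichtenoth 1.1.19: existence of places (Chevalley). -/

set_option autoImplicit false

namespace Fermat.Agent.S26

open AlgebraicCurve IntermediateField Polynomial

variable {Ω 𝕃 : Type*} [Field Ω] [Field 𝕃] [Algebra Ω 𝕃]

/-- Chevalley extension: if `x ∈ R` is a non-unit of `R`, `x ≠ 0`, there is a place with
`R ⊆ O_v` and `0 < v.ord x`.  Use Mathlib's `Ideal.image_subset_nonunits_valuationSubring` for `I = (x)`, then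
`exists_place_of_valuationSubring`. -/
theorem exists_place_of_subalgebra [FF1 Ω 𝕃] (R : Subalgebra Ω 𝕃) (x : R) (hx : ¬ IsUnit x)
    (hx0 : x ≠ 0) :
    ∃ v : Place Ω 𝕃, (∀ r : R, (r : 𝕃) ∈ v.toValuationSubring) ∧ 0 < v.ord (x : 𝕃) := by
  let x' : R.toSubring := ⟨x.1, x.2⟩
  have hI : Ideal.span {x'} ≠ ⊤ := by
    rw [Ne, Ideal.span_singleton_eq_top]
    intro hu
    apply hx
    obtain ⟨y, hy⟩ := isUnit_iff_exists_inv.mp hu
    refine isUnit_iff_exists_inv.mpr ⟨⟨y.1, y.2⟩, ?_⟩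
    have := congrArg Subtype.val hy
    exact Subtype.ext this
  obtain ⟨B, hRB, hB⟩ := Ideal.image_subset_nonunits_valuationSubring (Ideal.span {x'}) hI
  have hxB : (x : 𝕃) ∈ B.nonunits := hB ⟨x', Ideal.subset_span rfl, rfl⟩
  have hx0' : (x : 𝕃) ≠ 0 := by simpa using hx0
  have hxinv : (x : 𝕃)⁻¹ ∉ B := (B.mem_nonunits_iff_or.mp hxB).resolve_left hx0'
  have hΩ : ∀ a : Ω, algebraMap Ω 𝕃 a ∈ B := fun a => hRB (R.algebraMap_mem a)
  have hBtop : B ≠ ⊤ := fun h => hxinv (h ▸ ValuationSubring.mem_top _)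
  obtain ⟨v, hv⟩ := exists_place_of_valuationSubring B hΩ hBtop
  refine ⟨v, fun r => hv ▸ hRB r.2, ?_⟩
  have h1 : 0 ≤ v.ord (x : 𝕃) := Fermat.Agent.S24.FF.ord_nonneg_of_mem v (hv ▸ hRB x.2)
  rcases h1.lt_or_eq with h | h
  · exact h
  · exfalso
    apply hxinv
    rw [← hv]
    apply Fermat.Agent.S24.FF.mem_of_ord_nonneg
    rw [v.ord_inv]
    omega

/-- (1.1.19) a transcendental element has a zero (`R = Ω[x]`). -/
theorem exists_ord_pos [FF1 Ω 𝕃] {x : 𝕃} (hx : Transcendental Ω x) : ∃ v : Place Ω 𝕃, 0 < v.ord x := by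
  have hx0 : x ≠ 0 := fun h => hx (h ▸ isAlgebraic_zero)
  let R : Subalgebra Ω 𝕃 := Algebra.adjoin Ω {x}
  let xR : R := ⟨x, Algebra.self_mem_adjoin_singleton Ω x⟩
  have hnu : ¬ IsUnit xR := by
    intro hu
    obtain ⟨y, hy⟩ := isUnit_iff_exists_inv.mp hu
    have hy' : x * (y : 𝕃) = 1 := congrArg Subtype.val hy
    have hmem : (y : 𝕃) ∈ (aeval x : Polynomial Ω →ₐ[Ω] 𝕃).range := by
      rw [← Algebra.adjoin_singleton_eq_range_aeval]
      exact y.2
    obtain ⟨p, hp⟩ := hmem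
    have h1 : aeval x (X * p - 1 : Polynomial Ω) = 0 := by
      have hp' : aeval x p = (y : 𝕃) := hp
      simp [hp', hy']
    have h2 := (transcendental_iff.mp hx) _ h1
    have h3 := congrArg (fun q : Polynomial Ω => q.coeff 0) h2
    simp at h3
  obtain ⟨v, -, hv⟩ := exists_place_of_subalgebra R xR hnu (by
    intro h
    exact hx0 (congrArg Subtype.val h))
  exact ⟨v, hv⟩

theorem exists_ord_neg [FF1 Ω 𝕃] {x : 𝕃} (hx : Transcendental Ω x) : ∃ v : Place Ω 𝕃, v.ord x < 0 := by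
  have hx' : Transcendental Ω x⁻¹ := fun h => hx (by simpa using h.inv)
  obtain ⟨v, hv⟩ := exists_ord_pos hx'
  refine ⟨v, ?_⟩
  rw [v.ord_inv] at hv
  omega

theorem nonempty_place [FF1 Ω 𝕃] : Nonempty (Place Ω 𝕃) := by
  obtain ⟨x, hx⟩ := exists_transcendental (Ω := Ω) (𝕃 := 𝕃)
  obtain ⟨v, -⟩ := exists_ord_pos hx
  exact ⟨v⟩

end Fermat.Agent.S26
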