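import Fermat.Agent.S26.FF.LSpace

/-! # S26 / M1-Degree : Stichtenoth 1.4.11, 1.4.12. -/

set_option autoImplicit false

namespace Fermat.Agent.S26

open AlgebraicCurve IntermediateField Polynomial

variable {Ω 𝕃 : Type*} [Field Ω] [Field 𝕃] [Algebra Ω 𝕃]

theorem adjoin_simple_inv_eq (x : 𝕃) : Ω⟮x⁻¹⟯ = Ω⟮x⟯ := by
  apply le_antisymm
  · rw [adjoin_simple_le_iff]
    exact inv_mem (mem_adjoin_simple_self Ω x)
  · rw [adjoin_simple_le_iff]
    have := inv_mem (mem_adjoin_simple_self Ω x⁻¹)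
    rwa [inv_inv] at this

theorem transcendental_inv {x : 𝕃} (hx : Transcendental Ω x) : Transcendental Ω x⁻¹ := by
  intro h
  apply hx
  have := h.inv
  rwa [inv_inv] at this

/-- (proof of 1.4.11) take a basis `u_1 … u_n` of `𝕃 / Ω(x)` and `C ≥ 0` with `div u_j ≥ -C`; then the
`x ^ i u_j`, `0 ≤ i ≤ l`, are in `L(l (x)_∞ + C)` and are `Ω`-linearly independent
(`linearIndependent_pow_mul`). -/
theorem exists_le_finrank_LSpace_poleDivisor [FF1 Ω 𝕃] {x : 𝕃} (hx : Transcendental Ω x) :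
    ∃ C : Divisor Ω 𝕃, (∀ v, 0 ≤ C v) ∧ ∀ l : ℕ,
      (l + 1) * Module.finrank Ω⟮x⟯ 𝕃 ≤ Module.finrank Ω (LSpace (l • poleDivisor x + C)) := by
  classical
  have hfd := finiteDimensional_adjoin_of_transcendental hx
  have hx0 : x ≠ 0 := fun h => hx (h ▸ isAlgebraic_zero)
  set n := Module.finrank Ω⟮x⟯ 𝕃 with hn
  let b := Module.finBasis Ω⟮x⟯ 𝕃
  have hb0 : ∀ j, b j ≠ 0 := fun j => b.ne_zero j
  let C : Divisor Ω 𝕃 := ∑ j, poleDivisor (b j)
  have hCv : ∀ v, C v = ∑ j, max 0 (-v.ord (b j)) := by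
    intro v
    simp only [C, Finsupp.finsetSum_apply, poleDivisor_apply]
  have hC0 : ∀ v, 0 ≤ C v := by
    intro v
    rw [hCv]
    exact Finset.sum_nonneg fun j _ => le_max_left _ _
  have hCj : ∀ v j, -v.ord (b j) ≤ C v := by
    intro v j
    rw [hCv]
    calc -v.ord (b j) ≤ max 0 (-v.ord (b j)) := le_max_right _ _
      _ ≤ _ := Finset.single_le_sum (f := fun j => max 0 (-v.ord (b j)))
        (fun j _ => le_max_left _ _) (Finset.mem_univ j)
  refine ⟨C, hC0, fun l => ?_⟩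
  have hmem : ∀ p : Fin (l + 1) × Fin n, x ^ (p.1 : ℕ) * b p.2 ∈ LSpace (l • poleDivisor x + C) := by
    rintro ⟨i, j⟩
    refine Or.inr fun v => ?_
    have hi : (i : ℕ) ≤ l := Nat.lt_succ_iff.mp i.2
    have hi' : ((i : ℕ) : ℤ) ≤ (l : ℤ) := by exact_mod_cast hi
    rw [v.ord_mul (pow_ne_zero _ hx0) (hb0 j), Fermat.Agent.S24.FF.ord_pow]
    simp only [Finsupp.add_apply, Finsupp.smul_apply, poleDivisor_apply, nsmul_eq_mul]
    have h1 := hCj v j
    have h2 : 0 ≤ ((i : ℕ) : ℤ) * v.ord x + (l : ℤ) * max 0 (-v.ord x) := by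
      rcases le_total 0 (v.ord x) with h | h
      · rw [max_eq_left (by omega)]
        positivity
      · rw [max_eq_right (by omega)]
        nlinarith
    linarith
  have hli := linearIndependent_pow_mul hx b.linearIndependent
  have hinj : Function.Injective (fun p : Fin (l + 1) × Fin n => ((p.1 : ℕ), p.2)) := by
    rintro ⟨i, j⟩ ⟨i', j'⟩ h
    simp only [Prod.mk.injEq] at h
    exact Prod.ext (Fin.ext h.1) h.2
  have hli' := hli.comp _ hinj
  let w : Fin (l + 1) × Fin n → LSpace (l • poleDivisor x + C) := fun p => ⟨_, hmem p⟩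
  have hw : LinearIndependent Ω w := by
    apply LinearIndependent.of_comp (LSpace (l • poleDivisor x + C)).subtype
    exact hli'
  have := finite_LSpace (l • poleDivisor x + C)
  have hcard := hw.fintype_card_le_finrank
  simpa using hcard

/-- (1.4.11) `≤` is `degree_zeroDivisor_le` for `x⁻¹` (and `Ω(x⁻¹) = Ω(x)`); `≥`: by
`exists_le_finrank_LSpace_poleDivisor` and `finrank_LSpace_le_of_le` (compare with `L(0)`),
`(l+1) n ≤ dim L(0) + l deg (x)_∞ + deg C` for all `l`. -/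
theorem degree_poleDivisor [FF1 Ω 𝕃] {x : 𝕃} (hx : Transcendental Ω x) :
    Divisor.degree (poleDivisor (Ω := Ω) x) = Module.finrank Ω⟮x⟯ 𝕃 := by
  apply le_antisymm
  · have := degree_zeroDivisor_le (transcendental_inv hx)
    rwa [zeroDivisor_inv, adjoin_simple_inv_eq] at this
  · by_contra hlt
    rw [not_le] at hlt
    obtain ⟨C, hC0, hC⟩ := exists_le_finrank_LSpace_poleDivisor hx
    set n := Module.finrank Ω⟮x⟯ 𝕃 with hn
    set B := poleDivisor (Ω := Ω) x with hB
    have hB0 : ∀ v, 0 ≤ B v := fun v => by rw [hB, poleDivisor_apply]; exact le_max_left _ _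
    set c : ℤ := Module.finrank Ω (LSpace (0 : Divisor Ω 𝕃)) + Divisor.degree C with hc
    have hc0 : 0 ≤ c := by
      have := degree_nonneg hC0
      positivity
    obtain ⟨l, hl⟩ : ∃ l : ℕ, (l : ℤ) = c := ⟨c.toNat, Int.toNat_of_nonneg hc0⟩
    have h1 := hC l
    have h2 := finrank_LSpace_le_of_le (D := (0 : Divisor Ω 𝕃)) (D' := l • B + C) (fun v => by
      simp only [Finsupp.coe_zero, Pi.zero_apply, Finsupp.add_apply, Finsupp.smul_apply,
        nsmul_eq_mul]
      have := hB0 v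
      have := hC0 v
      positivity)
    rw [map_zero, sub_zero, map_add, map_nsmul, nsmul_eq_mul] at h2
    have h1' : ((l : ℤ) + 1) * (n : ℤ) ≤ Module.finrank Ω (LSpace (l • B + C)) := by
      exact_mod_cast h1
    have hdB : 0 ≤ Divisor.degree B := degree_nonneg hB0
    have h3 : ((l : ℤ) + 1) * (n : ℤ) ≤ c + l * Divisor.degree B := by
      rw [hc]; linarith
    have h4 : Divisor.degree B + 1 ≤ (n : ℤ) := hlt
    have hl0 : (0 : ℤ) ≤ l := by positivity
    nlinarith

theorem degree_zeroDivisor [FF1 Ω 𝕃] {x : 𝕃} (hx : Transcendental Ω x) :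
    Divisor.degree (zeroDivisor (Ω := Ω) x) = Module.finrank Ω⟮x⟯ 𝕃 := by
  have := degree_poleDivisor (transcendental_inv hx)
  rwa [poleDivisor_inv, adjoin_simple_inv_eq] at this

/-- (1.4.11) `deg (x)₀ = [𝕃 : Ω(x)]`. -/
theorem sum_zeros_eq_finrank [FF1 Ω 𝕃] {x : 𝕃} (hx : Transcendental Ω x) :
    ∑ᶠ v : {v : Place Ω 𝕃 // 0 < v.ord x}, v.1.ord x * (v.1.deg : ℤ) = Module.finrank Ω⟮x⟯ 𝕃 := by
  rw [← degree_zeroDivisor_eq_finsum, degree_zeroDivisor hx]

/-- (1.4.11) principal divisors have degree `0`. -/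
theorem degree_divisorOf [FF1 Ω 𝕃] (x : 𝕃) : Divisor.degree (divisorOf (Ω := Ω) x) = 0 := by
  by_cases hx : Transcendental Ω x
  · rw [divisorOf_eq_sub, map_sub, degree_zeroDivisor hx, degree_poleDivisor hx, sub_self]
  · have hx' : IsAlgebraic Ω x := not_not.mp hx
    have : divisorOf (Ω := Ω) x = 0 := by
      ext v
      rw [divisorOf_apply]
      by_cases hx0 : x = 0
      · simp [hx0]
      · simpa using ord_eq_zero_of_isAlgebraic v hx' hx0
    rw [this, map_zero]

/-- (1.4.12) -/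
theorem LSpace_eq_bot_of_degree_neg [FF1 Ω 𝕃] (D : Divisor Ω 𝕃) (h : Divisor.degree D < 0) :
    LSpace D = ⊥ := by
  rw [eq_bot_iff]
  intro f hf
  rw [Submodule.mem_bot]
  rcases hf with hf | hf
  · exact hf
  · exfalso
    have h1 : 0 ≤ Divisor.degree (divisorOf f + D) := degree_nonneg fun v => by
      rw [Finsupp.add_apply, divisorOf_apply]
      exact hf v
    rw [map_add, degree_divisorOf, zero_add] at h1
    omega

end Fermat.Agent.S26
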