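import Fermat.Agent.S26.FF.Defs

/-! # S26 / M1-Approx : Stichtenoth 1.3.1: weak approximation. -/

set_option autoImplicit false

namespace Fermat.Agent.S26

open AlgebraicCurve IntermediateField Polynomial

variable {Ω 𝕃 : Type*} [Field Ω] [Field 𝕃] [Algebra Ω 𝕃]

namespace Approx

open Fermat.Agent.S24.FF

open Classical in
/-- the real absolute value `f ↦ 2 ^ (- ord f)` attached to a place -/
noncomputable def absv (v : Place Ω 𝕃) : AbsoluteValue 𝕃 ℝ where
  toFun f := if f = 0 then 0 else (2 : ℝ) ^ (-(v.ord f))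
  map_mul' f g := by
    by_cases hf : f = 0
    · simp [hf]
    by_cases hg : g = 0
    · simp [hg]
    simp only [hf, hg, mul_eq_zero, or_self, if_false]
    rw [v.ord_mul hf hg, neg_add, zpow_add₀ (by norm_num)]
  nonneg' f := by
    by_cases hf : f = 0
    · simp [hf]
    · simp only [hf, if_false]; positivity
  eq_zero' f := by
    by_cases hf : f = 0
    · simp [hf]
    · simp only [hf, if_false, iff_false]; positivity
  add_le' f g := by
    by_cases hf : f = 0
    · simp [hf]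
    by_cases hg : g = 0
    · simp [hg]
    by_cases hfg : f + g = 0
    · simp only [hfg, hf, hg, if_true, if_false]; positivity
    simp only [hfg, hf, hg, if_false]
    have h := ord_add v hf hg hfg
    rcases min_le_iff.mp h with h | h
    · have : (2 : ℝ) ^ (-(v.ord (f + g))) ≤ (2 : ℝ) ^ (-(v.ord f)) :=
        zpow_le_zpow_right₀ (by norm_num) (by omega)
      have h2 : (0 : ℝ) < (2 : ℝ) ^ (-(v.ord g)) := by positivity
      linarith
    · have : (2 : ℝ) ^ (-(v.ord (f + g))) ≤ (2 : ℝ) ^ (-(v.ord g)) :=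
        zpow_le_zpow_right₀ (by norm_num) (by omega)
      have h2 : (0 : ℝ) < (2 : ℝ) ^ (-(v.ord f)) := by positivity
      linarith

open Classical in
theorem absv_apply (v : Place Ω 𝕃) {f : 𝕃} (hf : f ≠ 0) : absv v f = (2 : ℝ) ^ (-(v.ord f)) := by
  show (if f = 0 then 0 else (2 : ℝ) ^ (-(v.ord f))) = _
  rw [if_neg hf]

theorem absv_le_one_iff (v : Place Ω 𝕃) {f : 𝕃} (hf : f ≠ 0) : absv v f ≤ 1 ↔ 0 ≤ v.ord f := by
  rw [absv_apply v hf, ← zpow_zero (2 : ℝ), zpow_le_zpow_iff_right₀ (by norm_num)]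
  omega

theorem absv_lt_iff (v : Place Ω 𝕃) {f : 𝕃} (hf : f ≠ 0) (n : ℤ) :
    absv v f < (2 : ℝ) ^ (-n) ↔ n < v.ord f := by
  rw [absv_apply v hf, zpow_lt_zpow_iff_right₀ (by norm_num)]
  omega

theorem absv_isNontrivial (v : Place Ω 𝕃) : (absv v).IsNontrivial := by
  obtain ⟨π, hπ⟩ := exists_ord_eq_one v
  have hπ0 : π ≠ 0 := ne_zero_of_ord_ne_zero v (by omega)
  refine ⟨π, hπ0, ?_⟩
  rw [absv_apply v hπ0, hπ]
  norm_num

theorem eq_of_isEquiv {v w : Place Ω 𝕃} (h : (absv v).IsEquiv (absv w)) : v = w := by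
  refine eq_of_forall_ord_nonneg fun f hf => ?_
  by_cases hf0 : f = 0
  · simp [hf0]
  · exact (absv_le_one_iff w hf0).mp (h.le_one_iff.mp ((absv_le_one_iff v hf0).mpr hf))

end Approx

open Approx in
/-- (1.3.1) weak approximation, in the form needed.  (`FF1` is not needed for the proof.)
Proof: Mathlib's `AbsoluteValue.denseRange_algebraMap_pi` for the real absolute values
`f ↦ 2 ^ (- v.ord f)`. -/
theorem exists_approx [FF1 Ω 𝕃] (s : Finset (Place Ω 𝕃)) (x : Place Ω 𝕃 → 𝕃) (n : Place Ω 𝕃 → ℤ) :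
    ∃ y : 𝕃, ∀ v ∈ s, y = x v ∨ n v ≤ v.ord (y - x v) := by
  classical
  have hd := AbsoluteValue.denseRange_algebraMap_pi (F := 𝕃) (ι := s) (v := fun i => absv i.1)
    (fun i => absv_isNontrivial i.1)
    (fun i j hij h => hij (Subtype.ext (eq_of_isEquiv h)))
  rw [Metric.denseRange_iff] at hd
  -- a common precision
  set m : ℕ := s.sup (fun v => (n v).toNat) with hm
  have hmn : ∀ v ∈ s, n v ≤ m := by
    intro v hv
    have h1 : (n v).toNat ≤ m := Finset.le_sup (f := fun v => (n v).toNat) hv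
    have h2 := Int.self_le_toNat (n v)
    omega
  obtain ⟨y, hy⟩ := hd (fun i => WithAbs.toAbs (absv i.1) (x i.1)) ((2 : ℝ) ^ (-(m : ℤ)))
    (by positivity)
  refine ⟨y, fun v hv => ?_⟩
  by_cases hyx : y = x v
  · exact Or.inl hyx
  right
  have h1 := (dist_pi_lt_iff (by positivity)).mp hy ⟨v, hv⟩
  have h2 : absv v (x v - y) < (2 : ℝ) ^ (-(m : ℤ)) := by
    rw [dist_eq_norm] at h1
    exact h1
  have h3 : x v - y ≠ 0 := sub_ne_zero.mpr (Ne.symm hyx)
  rw [absv_lt_iff v h3] at h2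
  have h4 : v.ord (y - x v) = v.ord (x v - y) := by
    rw [← Fermat.Agent.S24.FF.ord_neg, neg_sub]
  have := hmn v hv
  omega

/-- prescribed orders at finitely many places (approximate `π_v ^ (n v)` to precision `n v + 1`). -/
theorem exists_ord_eq [FF1 Ω 𝕃] (s : Finset (Place Ω 𝕃)) (n : Place Ω 𝕃 → ℤ) :
    ∃ y : 𝕃, y ≠ 0 ∧ ∀ v ∈ s, v.ord y = n v := by
  classical
  rcases s.eq_empty_or_nonempty with rfl | ⟨v₀, hv₀⟩
  · exact ⟨1, one_ne_zero, by simp⟩
  choose π hπ using fun v : Place Ω 𝕃 => Fermat.Agent.S24.FF.exists_ord_eq_one v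
  have hπ0 : ∀ v, π v ≠ 0 := fun v => Fermat.Agent.S24.FF.ne_zero_of_ord_ne_zero v (by rw [hπ]; omega)
  have hx0 : ∀ v, π v ^ (n v) ≠ 0 := fun v => zpow_ne_zero _ (hπ0 v)
  have hxo : ∀ v : Place Ω 𝕃, v.ord (π v ^ (n v)) = n v := fun v => by
    rw [v.ord_zpow, hπ, mul_one]
  obtain ⟨y, hy⟩ := exists_approx s (fun v => π v ^ (n v)) (fun v => n v + 1)
  have key : ∀ v ∈ s, y ≠ 0 ∧ v.ord y = n v := by
    intro v hv
    rcases hy v hv with h | h
    · rw [h]; exact ⟨hx0 v, hxo v⟩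
    · by_cases hyx : y - π v ^ (n v) = 0
      · rw [sub_eq_zero.mp hyx]; exact ⟨hx0 v, hxo v⟩
      have h1 : v.ord (π v ^ (n v) + (y - π v ^ (n v))) = v.ord (π v ^ (n v)) :=
        Fermat.Agent.S24.FF.ord_add_eq_of_lt v (hx0 v) hyx (by rw [hxo]; omega)
      rw [add_sub_cancel, hxo] at h1
      refine ⟨?_, h1⟩
      rintro rfl
      rw [zero_sub, Fermat.Agent.S24.FF.ord_neg, hxo] at h
      omega
  exact ⟨y, (key v₀ hv₀).1, fun v hv => (key v hv).2⟩

end Fermat.Agent.S26
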