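import Mathlib
import Fermat.Prelude.Def_AlgebraicCurve_DivisorClassGroup
import Fermat.Agent.S24.FF.PlaceBasic

/-! # S26 / M1 : function fields of one variable over an arbitrary constant field: definitions.

We use the Prelude's `AlgebraicCurve.Place Ω 𝕃` (a valuation subring of `𝕃` containing `Ω`, `≠ ⊤`, PIR),
`Place.ord`, `Place.deg`, `AlgebraicCurve.Divisor Ω 𝕃 = Place Ω 𝕃 →₀ ℤ`, `Divisor.degree`,
and the general lemmas of `Fermat.Agent.S24.FF.PlaceBasic` (valid for all fields). -/

set_option autoImplicit false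

namespace Fermat.Agent.S26

open AlgebraicCurve

/-- `𝕃/Ω` is a function field of one variable (finitely generated, transcendence degree one).
`Ω` is NOT assumed algebraically closed in `𝕃`, nor perfect. -/
class FF1 (Ω 𝕃 : Type*) [Field Ω] [Field 𝕃] [Algebra Ω 𝕃] : Prop where
  essFiniteType : Algebra.EssFiniteType Ω 𝕃
  trdeg_eq_one : Algebra.trdeg Ω 𝕃 = 1

variable {Ω 𝕃 : Type*} [Field Ω] [Field 𝕃] [Algebra Ω 𝕃]

/-- The Riemann–Roch space `L(D) = {f | f = 0 ∨ div f + D ≥ 0}`. -/
def LSpace (D : Divisor Ω 𝕃) : Submodule Ω 𝕃 where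
  carrier := {f | f = 0 ∨ ∀ v : Place Ω 𝕃, 0 ≤ v.ord f + D v}
  zero_mem' := Or.inl rfl
  add_mem' := by
    rintro f g hf hg
    by_cases hf0 : f = 0
    · simpa [hf0] using hg
    by_cases hg0 : g = 0
    · simpa [hg0] using hf
    by_cases hfg : f + g = 0
    · exact Or.inl hfg
    refine Or.inr fun v => ?_
    have h1 := (hf.resolve_left hf0) v
    have h2 := (hg.resolve_left hg0) v
    have h3 := Fermat.Agent.S24.FF.ord_add v hf0 hg0 hfg
    omega
  smul_mem' := by
    rintro c f hf
    by_cases hc : c = 0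
    · left; simp [hc]
    by_cases hf0 : f = 0
    · left; simp [hf0]
    refine Or.inr fun v => ?_
    have h1 := (hf.resolve_left hf0) v
    have hc' : algebraMap Ω 𝕃 c ≠ 0 := by simpa using hc
    rw [Algebra.smul_def, v.ord_mul hc' hf0, Fermat.Agent.S24.FF.ord_algebraMap]
    simpa using h1

theorem mem_LSpace {D : Divisor Ω 𝕃} {f : 𝕃} :
    f ∈ LSpace D ↔ f = 0 ∨ ∀ v : Place Ω 𝕃, 0 ≤ v.ord f + D v := Iff.rfl

/-- Restriction of the constant field of a place. -/
def _root_.AlgebraicCurve.Place.restrictConst (K : Type*) [Field K] [Algebra K Ω] [Algebra K 𝕃]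
    [IsScalarTower K Ω 𝕃] (v : Place Ω 𝕃) : Place K 𝕃 where
  toValuationSubring := v.toValuationSubring
  algebraMap_mem' a := by
    rw [IsScalarTower.algebraMap_apply K Ω 𝕃]; exact v.algebraMap_mem' _
  ne_top' := v.ne_top'
  isPrincipalIdealRing' := v.isPrincipalIdealRing'

end Fermat.Agent.S26
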