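import Fermat.Agent.S26.FF.Nonspecial

/-! # S26 / FF : the valuation ring of a place is essentially of finite type over the constant field.

`A_m := L(m (x)_∞)`.  By Riemann's theorem `A_{m+1} = x A_m + A_m` for `m ≫ 0`, so the ring `⋃ A_m` of functions
regular outside the poles of `x` is generated by `x` and `A_{m₁}`; `O_c` is a localisation of it. -/

set_option autoImplicit false

namespace Fermat.Agent.S26

open AlgebraicCurve IntermediateField Polynomial

variable {Ω 𝕃 : Type*} [Field Ω] [Field 𝕃] [Algebra Ω 𝕃]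

namespace EssFin

open Fermat.Agent.S24.FF

theorem mul_mem_LSpace_succ [FF1 Ω 𝕃] {x : 𝕃} (m : ℕ) {f : 𝕃}
    (hf : f ∈ LSpace (m • poleDivisor (Ω := Ω) x)) :
    x * f ∈ LSpace ((m + 1) • poleDivisor (Ω := Ω) x) := by
  by_cases hx0 : x = 0
  · simp [hx0]
  rcases hf with rfl | hf
  · simp
  by_cases hf0 : f = 0
  · simp [hf0]
  refine Or.inr fun w => ?_
  have h1 := hf w
  rw [w.ord_mul hx0 hf0]
  simp only [Finsupp.smul_apply, poleDivisor_apply, nsmul_eq_mul] at h1 ⊢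
  push_cast
  have h2 : -w.ord x ≤ max 0 (-w.ord x) := le_max_right _ _
  nlinarith

theorem LSpace_le_succ [FF1 Ω 𝕃] {x : 𝕃} (m : ℕ) :
    LSpace (m • poleDivisor (Ω := Ω) x) ≤ LSpace ((m + 1) • poleDivisor (Ω := Ω) x) := by
  refine LSpace_mono fun w => ?_
  simp only [Finsupp.smul_apply, poleDivisor_apply, nsmul_eq_mul]
  push_cast
  have h2 : (0 : ℤ) ≤ max 0 (-w.ord x) := le_max_left _ _
  nlinarith

theorem LSpace_le_of_le [FF1 Ω 𝕃] {x : 𝕃} {m m' : ℕ} (h : m ≤ m') :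
    LSpace (m • poleDivisor (Ω := Ω) x) ≤ LSpace (m' • poleDivisor (Ω := Ω) x) := by
  induction h with
  | refl => exact le_rfl
  | step _ ih => exact ih.trans (LSpace_le_succ _)

/-- `x A_{m+1} ∩ A_{m+1} ⊆ x A_m` -/
theorem mem_LSpace_of_mul_mem [FF1 Ω 𝕃] {x : 𝕃} (hx0 : x ≠ 0) (m : ℕ) {f : 𝕃}
    (hf : f ∈ LSpace ((m + 1) • poleDivisor (Ω := Ω) x))
    (hxf : x * f ∈ LSpace ((m + 1) • poleDivisor (Ω := Ω) x)) :
    f ∈ LSpace (m • poleDivisor (Ω := Ω) x) := by
  by_cases hf0 : f = 0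
  · simp [hf0]
  have hf' := hf.resolve_left hf0
  have hxf' := hxf.resolve_left (mul_ne_zero hx0 hf0)
  refine Or.inr fun w => ?_
  have h1 := hf' w
  have h2 := hxf' w
  rw [w.ord_mul hx0 hf0] at h2
  simp only [Finsupp.smul_apply, poleDivisor_apply, nsmul_eq_mul] at h1 h2 ⊢
  push_cast at h1 h2
  rcases le_total 0 (w.ord x) with h | h
  · rw [max_eq_left (by omega)] at h1 ⊢
    simpa using h1
  · rw [max_eq_right (by omega)] at h2 ⊢
    nlinarith

theorem degree_nsmul_poleDivisor [FF1 Ω 𝕃] {x : 𝕃} (hx : Transcendental Ω x) (m : ℕ) :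
    Divisor.degree (m • poleDivisor (Ω := Ω) x) = m * (Module.finrank Ω⟮x⟯ 𝕃 : ℤ) := by
  rw [map_nsmul, degree_poleDivisor hx, nsmul_eq_mul]

/-- `A_{m+2} = x A_{m+1} + A_{m+1}` for `m ≫ 0`. -/
theorem LSpace_succ_succ_eq [FF1 Ω 𝕃] {x : 𝕃} (hx : Transcendental Ω x) (g : ℕ) (c₀ : ℤ)
    (hg : ∀ D : Divisor Ω 𝕃, c₀ ≤ Divisor.degree D →
      (Module.finrank Ω (LSpace D) : ℤ) = Divisor.degree D + 1 - g)
    (m : ℕ) (hm : c₀ ≤ m * (Module.finrank Ω⟮x⟯ 𝕃 : ℤ)) :
    (LSpace ((m + 1) • poleDivisor (Ω := Ω) x)).map (LinearMap.mulLeft Ω x)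
      ⊔ LSpace ((m + 1) • poleDivisor (Ω := Ω) x) = LSpace ((m + 2) • poleDivisor (Ω := Ω) x) := by
  have hx0 : x ≠ 0 := fun h => hx (h ▸ isAlgebraic_zero)
  set n : ℤ := (Module.finrank Ω⟮x⟯ 𝕃 : ℤ) with hn
  have hn0 : 0 ≤ n := by positivity
  set U := LSpace ((m + 1) • poleDivisor (Ω := Ω) x) with hU
  set U0 := LSpace (m • poleDivisor (Ω := Ω) x) with hU0
  set U2 := LSpace ((m + 2) • poleDivisor (Ω := Ω) x) with hU2
  have hinj : Function.Injective (LinearMap.mulLeft Ω x) := by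
    intro a b hab
    exact mul_left_cancel₀ hx0 hab
  have fU : Module.Finite Ω U := finite_LSpace _
  have fU0 : Module.Finite Ω U0 := finite_LSpace _
  have fU2 : Module.Finite Ω U2 := finite_LSpace _
  have fxU : Module.Finite Ω (U.map (LinearMap.mulLeft Ω x)) := inferInstance
  have d0 : (Module.finrank Ω U0 : ℤ) = m * n + 1 - g := by
    rw [hU0, hg _ (by rw [degree_nsmul_poleDivisor hx]; exact hm), degree_nsmul_poleDivisor hx]
  have d1 : (Module.finrank Ω U : ℤ) = (m + 1) * n + 1 - g := by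
    rw [hU, hg _ (by rw [degree_nsmul_poleDivisor hx]; push_cast; nlinarith),
      degree_nsmul_poleDivisor hx]
    push_cast; ring
  have d2 : (Module.finrank Ω U2 : ℤ) = (m + 2) * n + 1 - g := by
    rw [hU2, hg _ (by rw [degree_nsmul_poleDivisor hx]; push_cast; nlinarith),
      degree_nsmul_poleDivisor hx]
    push_cast; ring
  have hle : U.map (LinearMap.mulLeft Ω x) ⊔ U ≤ U2 := by
    refine sup_le ?_ (LSpace_le_succ (m + 1))
    rintro _ ⟨f, hf, rfl⟩
    exact mul_mem_LSpace_succ (m + 1) hf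
  have hinf : U.map (LinearMap.mulLeft Ω x) ⊓ U ≤ U0.map (LinearMap.mulLeft Ω x) := by
    rintro _ ⟨⟨f, hf, rfl⟩, hxf⟩
    exact ⟨f, mem_LSpace_of_mul_mem hx0 m hf hxf, rfl⟩
  have e1 : Module.finrank Ω (U.map (LinearMap.mulLeft Ω x)) = Module.finrank Ω U :=
    (LinearEquiv.finrank_eq (Submodule.equivMapOfInjective _ hinj U)).symm
  have e0 : Module.finrank Ω (U0.map (LinearMap.mulLeft Ω x)) = Module.finrank Ω U0 :=
    (LinearEquiv.finrank_eq (Submodule.equivMapOfInjective _ hinj U0)).symm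
  have h3 : Module.finrank Ω ↥(U.map (LinearMap.mulLeft Ω x) ⊓ U) ≤ Module.finrank Ω U0 := by
    rw [← e0]
    exact Submodule.finrank_mono hinf
  have h4 := Submodule.finrank_sup_add_finrank_inf_eq (U.map (LinearMap.mulLeft Ω x)) U
  rw [e1] at h4
  refine Submodule.eq_of_le_of_finrank_le hle ?_
  zify at h3 h4 ⊢
  nlinarith

theorem finrank_adjoin_pos [FF1 Ω 𝕃] {x : 𝕃} (hx : Transcendental Ω x) :
    0 < Module.finrank Ω⟮x⟯ 𝕃 := by
  have := finiteDimensional_adjoin_of_transcendental hx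
  exact Module.finrank_pos

/-- the ring of functions regular outside the poles of `x` is generated by `x` and `L(m₁ (x)_∞)`. -/
theorem exists_LSpace_le_adjoin [FF1 Ω 𝕃]
    (h0 : Module.finrank Ω (LSpace (0 : Divisor Ω 𝕃)) = 1) {x : 𝕃} (hx : Transcendental Ω x) :
    ∃ m₁ : ℕ, ∀ m : ℕ, ∀ f ∈ LSpace (m • poleDivisor (Ω := Ω) x),
      f ∈ Algebra.adjoin Ω (insert x (LSpace (m₁ • poleDivisor (Ω := Ω) x) : Set 𝕃)) := by
  obtain ⟨g, c₀, -, hg⟩ := exists_genus (Ω := Ω) (𝕃 := 𝕃) h0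
  have hn := finrank_adjoin_pos hx
  set k₀ := c₀.toNat with hk₀
  refine ⟨k₀ + 1, ?_⟩
  have key : ∀ j : ℕ, ∀ f ∈ LSpace ((k₀ + 1 + j) • poleDivisor (Ω := Ω) x),
      f ∈ Algebra.adjoin Ω (insert x (LSpace ((k₀ + 1) • poleDivisor (Ω := Ω) x) : Set 𝕃)) := by
    intro j
    induction j with
    | zero =>
      intro f hf
      exact Algebra.subset_adjoin (Set.mem_insert_of_mem _ hf)
    | succ j ih =>
      intro f hf
      have hm : c₀ ≤ ((k₀ + j : ℕ) : ℤ) * (Module.finrank Ω⟮x⟯ 𝕃 : ℤ) := by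
        have h1 : c₀ ≤ (k₀ : ℤ) := Int.self_le_toNat c₀
        have h2 : (1 : ℤ) ≤ (Module.finrank Ω⟮x⟯ 𝕃 : ℤ) := by exact_mod_cast hn
        push_cast
        nlinarith
      have heq := LSpace_succ_succ_eq hx g c₀ hg (k₀ + j) hm
      have e1 : k₀ + 1 + (j + 1) = k₀ + j + 2 := by ring
      have e2 : k₀ + 1 + j = k₀ + j + 1 := by ring
      rw [e1, ← heq] at hf
      rw [e2] at ih
      obtain ⟨y, ⟨y', hy', rfl⟩, z, hz, rfl⟩ := Submodule.mem_sup.mp hf
      refine add_mem (mul_mem ?_ (ih y' hy')) (ih z hz)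
      exact Algebra.subset_adjoin (Set.mem_insert _ _)
  intro m f hf
  exact key m f (LSpace_le_of_le (by omega) hf)

theorem exists_denominator [FF1 Ω 𝕃]
    (h0 : Module.finrank Ω (LSpace (0 : Divisor Ω 𝕃)) = 1) {x : 𝕃} (hx : Transcendental Ω x)
    (c : Place Ω 𝕃) (hc : 0 ≤ c.ord x) {s : 𝕃} (hs : 0 ≤ c.ord s) :
    ∃ (m : ℕ) (t : 𝕃), t ∈ LSpace (m • poleDivisor (Ω := Ω) x) ∧ t ≠ 0 ∧ c.ord t = 0 ∧
      s * t ∈ LSpace (m • poleDivisor (Ω := Ω) x) := by
  classical
  obtain ⟨g, c₀, -, hg⟩ := exists_genus (Ω := Ω) (𝕃 := 𝕃) h0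
  have hn := finrank_adjoin_pos hx
  set D := poleDivisor (Ω := Ω) s with hD
  set m := (c₀ + Divisor.degree D + c.deg).toNat with hm
  set E := m • poleDivisor (Ω := Ω) x - D with hE
  have hdegE : Divisor.degree E = m * (Module.finrank Ω⟮x⟯ 𝕃 : ℤ) - Divisor.degree D := by
    rw [hE, map_sub, degree_nsmul_poleDivisor hx]
  have hmge : c₀ + Divisor.degree D + c.deg ≤ m * (Module.finrank Ω⟮x⟯ 𝕃 : ℤ) := by
    have h1 : c₀ + Divisor.degree D + c.deg ≤ (m : ℤ) := Int.self_le_toNat _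
    have h2 : (1 : ℤ) ≤ (Module.finrank Ω⟮x⟯ 𝕃 : ℤ) := by exact_mod_cast hn
    have h3 : (0 : ℤ) ≤ (m : ℤ) := by positivity
    nlinarith
  have hcdeg : 0 < c.deg := deg_pos c
  have l1 : (Module.finrank Ω (LSpace E) : ℤ) = Divisor.degree E + 1 - g :=
    hg _ (by rw [hdegE]; have : (0 : ℤ) < c.deg := by exact_mod_cast hcdeg
             linarith)
  have l2 : (Module.finrank Ω (LSpace (E - Finsupp.single c 1)) : ℤ)
      = Divisor.degree E - c.deg + 1 - g := by
    rw [hg _ (by rw [map_sub, hdegE, Divisor.degree_single]; linarith), map_sub,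
      Divisor.degree_single]
    ring
  have hex : ∃ t ∈ LSpace E, t ∉ LSpace (E - Finsupp.single c 1) := by
    by_contra hcon
    have hle : LSpace E ≤ LSpace (E - Finsupp.single c 1) := by
      intro t ht
      by_contra h
      exact hcon ⟨t, ht, h⟩
    have := finite_LSpace (E - Finsupp.single c 1)
    have h5 := Submodule.finrank_mono hle
    zify at h5
    have : (0 : ℤ) < c.deg := by exact_mod_cast hcdeg
    linarith
  obtain ⟨t, ht, ht'⟩ := hex
  have ht0 : t ≠ 0 := fun h => ht' (h ▸ zero_mem _)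
  have htE := ht.resolve_left ht0
  have hBc : poleDivisor (Ω := Ω) x c = 0 := by
    rw [poleDivisor_apply]; exact max_eq_left (by omega)
  have hDc : D c = 0 := by
    rw [hD, poleDivisor_apply]; exact max_eq_left (by omega)
  have hEc : E c = 0 := by
    simp [hE, hBc, hDc]
  have hD0 : ∀ w, 0 ≤ D w := fun w => by rw [hD, poleDivisor_apply]; exact le_max_left _ _
  refine ⟨m, t, ?_, ht0, ?_, ?_⟩
  · refine LSpace_mono (fun w => ?_) ht
    have := hD0 w
    simp only [hE, Finsupp.sub_apply]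
    omega
  · have h1 := htE c
    rw [hEc] at h1
    have h2 : ¬ ∀ w : Place Ω 𝕃, 0 ≤ w.ord t + (E - Finsupp.single c 1 : Divisor Ω 𝕃) w :=
      fun h => ht' (Or.inr h)
    rw [not_forall] at h2
    obtain ⟨w, hw⟩ := h2
    by_cases hwc : w = c
    · subst hwc
      simp only [Finsupp.sub_apply, Finsupp.single_eq_same, hEc] at hw
      omega
    · exfalso
      apply hw
      have := htE w
      simp only [Finsupp.sub_apply, Finsupp.single_apply, if_neg (Ne.symm hwc)]
      simpa using this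
  · by_cases hs0 : s = 0
    · simp [hs0]
    refine Or.inr fun w => ?_
    have h1 := htE w
    rw [w.ord_mul hs0 ht0]
    have h2 : -w.ord s ≤ D w := by rw [hD, poleDivisor_apply]; exact le_max_right _ _
    simp only [hE, Finsupp.sub_apply] at h1
    omega

end EssFin

/-- The valuation ring of a place is essentially of finite type over the (full) constant field. -/
theorem essFiniteType_valuationSubring [FF1 Ω 𝕃]
    (h0 : Module.finrank Ω (LSpace (0 : Divisor Ω 𝕃)) = 1) (c : Place Ω 𝕃) :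
    Algebra.EssFiniteType Ω c.toValuationSubring := by
  classical
  obtain ⟨x, hx1⟩ := Fermat.Agent.S24.FF.exists_ord_eq_one c
  have hx : Transcendental Ω x := transcendental_of_ord_ne_zero c (by omega)
  have hc : 0 ≤ c.ord x := by omega
  obtain ⟨m₁, hm₁⟩ := EssFin.exists_LSpace_le_adjoin h0 hx
  have hfin := finite_LSpace (m₁ • poleDivisor (Ω := Ω) x)
  obtain ⟨S, hS⟩ := (Module.Finite.iff_fg).mp hfin
  have hBc : poleDivisor (Ω := Ω) x c = 0 := by
    rw [poleDivisor_apply]; exact max_eq_left (by omega)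
  have hmemL : ∀ (m : ℕ) (f : 𝕃), f ∈ LSpace (m • poleDivisor (Ω := Ω) x) →
      f ∈ c.toValuationSubring := by
    intro m f hf
    rcases hf with rfl | hf
    · exact zero_mem _
    · apply Fermat.Agent.S24.FF.mem_of_ord_nonneg
      have := hf c
      simpa [hBc] using this
  have hSmem : ∀ y ∈ insert x S, y ∈ c.toValuationSubring := by
    intro y hy
    rcases Finset.mem_insert.mp hy with rfl | hy
    · exact Fermat.Agent.S24.FF.mem_of_ord_nonneg c hc
    · exact hmemL m₁ y (hS ▸ Submodule.subset_span hy)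
  let σ : Finset c.toValuationSubring := (insert x S).subtype (fun y => y ∈ c.toValuationSubring)
  let φ : c.toValuationSubring →ₐ[Ω] 𝕃 := IsScalarTower.toAlgHom Ω c.toValuationSubring 𝕃
  have hφ : ∀ a : c.toValuationSubring, φ a = (a : 𝕃) := fun _ => rfl
  have himg : φ '' (σ : Set c.toValuationSubring) = ((insert x S : Finset 𝕃) : Set 𝕃) := by
    ext y
    constructor
    · rintro ⟨a, ha, rfl⟩
      exact Finset.mem_subtype.mp ha
    · intro hy
      exact ⟨⟨y, hSmem y hy⟩, Finset.mem_subtype.mpr hy, rfl⟩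
  have hadj : ∀ (m : ℕ) (f : 𝕃), f ∈ LSpace (m • poleDivisor (Ω := Ω) x) →
      ∃ a ∈ Algebra.adjoin Ω (σ : Set c.toValuationSubring), (a : 𝕃) = f := by
    intro m f hf
    have h1 := hm₁ m f hf
    have h2 : Algebra.adjoin Ω (insert x (LSpace (m₁ • poleDivisor (Ω := Ω) x) : Set 𝕃))
        ≤ Algebra.adjoin Ω ((insert x S : Finset 𝕃) : Set 𝕃) := by
      refine Algebra.adjoin_le ?_
      intro y hy
      rcases hy with rfl | hy
      · exact Algebra.subset_adjoin (by simp)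
      · have hy' : y ∈ Submodule.span Ω (S : Set 𝕃) := hS ▸ hy
        have h3 : Submodule.span Ω (S : Set 𝕃)
            ≤ Subalgebra.toSubmodule (Algebra.adjoin Ω ((insert x S : Finset 𝕃) : Set 𝕃)) := by
          refine Submodule.span_le.mpr fun z hz => ?_
          exact Algebra.subset_adjoin (by simp [Finset.mem_coe.mp hz])
        exact h3 hy'
    have h4 := h2 h1
    rw [← himg, ← AlgHom.map_adjoin] at h4
    obtain ⟨a, ha, rfl⟩ := h4
    exact ⟨a, ha, rfl⟩
  rw [Algebra.essFiniteType_iff]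
  refine ⟨σ, fun s => ?_⟩
  obtain ⟨m, t, ht, ht0, htc, hst⟩ := EssFin.exists_denominator h0 hx c hc
    (Fermat.Agent.S24.FF.ord_nonneg_of_mem c s.2)
  obtain ⟨t', ht', rfl⟩ := hadj m t ht
  obtain ⟨u, hu, hu'⟩ := hadj m _ hst
  refine ⟨t', ht', ?_, ?_⟩
  · exact (Fermat.Agent.S24.FF.DegOne.isUnit_iff_ord_eq_zero c (by simpa using ht0)).mpr htc
  · have : s * t' = u := Subtype.ext (by rw [hu']; rfl)
    rw [this]
    exact hu

theorem essFiniteType_valuationSubring_of_isAlgClosed [IsAlgClosed Ω] [FF1 Ω 𝕃] (c : Place Ω 𝕃) :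
    Algebra.EssFiniteType Ω c.toValuationSubring :=
  essFiniteType_valuationSubring finrank_LSpace_zero_of_isAlgClosed c

end Fermat.Agent.S26
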