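import Fermat.Agent.S26.FF.Alg

/-! # S26 / M1-DVR : Stichtenoth 1.1.6 / 1.1.7: valuation rings of a function field are DVRs. -/

set_option autoImplicit false

namespace Fermat.Agent.S26

open AlgebraicCurve IntermediateField Polynomial

variable {Ω 𝕃 : Type*} [Field Ω] [Field 𝕃] [Algebra Ω 𝕃]

namespace DVR

variable {Γ : Type*} [LinearOrderedCommGroupWithZero Γ] (V : Valuation 𝕃 Γ)

theorem val_aeval_le_one (hV : ∀ c : Ω, V (algebraMap Ω 𝕃 c) ≤ 1) {x : 𝕃} (hx : V x ≤ 1)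
    (φ : Polynomial Ω) : V (aeval x φ) ≤ 1 := by
  rw [Polynomial.aeval_eq_sum_range]
  refine V.map_sum_le fun i _ => ?_
  rw [Algebra.smul_def, map_mul, map_pow]
  exact mul_le_one' (hV _) (pow_le_one' hx _)

theorem aeval_eq (x : 𝕃) (φ : Polynomial Ω) :
    aeval x φ = aeval x φ.divX * x + algebraMap Ω 𝕃 (φ.coeff 0) := by
  conv_lhs => rw [← Polynomial.divX_mul_X_add φ]
  simp

theorem val_aeval_le_of_coeff_zero (hV : ∀ c : Ω, V (algebraMap Ω 𝕃 c) ≤ 1) {x : 𝕃} (hx : V x ≤ 1)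
    {φ : Polynomial Ω} (h : φ.coeff 0 = 0) : V (aeval x φ) ≤ V x := by
  rw [aeval_eq x φ, h, map_zero, add_zero, map_mul]
  exact mul_le_of_le_one_left' (val_aeval_le_one V hV hx _)

theorem val_algebraMap_eq_one (hV : ∀ c : Ω, V (algebraMap Ω 𝕃 c) ≤ 1) {c : Ω} (hc : c ≠ 0) :
    V (algebraMap Ω 𝕃 c) = 1 := by
  refine le_antisymm (hV c) ?_
  have h1 := hV c⁻¹
  rw [map_inv₀, map_inv₀] at h1
  have h0 : V (algebraMap Ω 𝕃 c) ≠ 0 := (Valuation.ne_zero_iff _).mpr (by simpa using hc)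
  exact (inv_le_one₀ (zero_lt_iff.mpr h0)).mp h1

theorem val_aeval_eq_one (hV : ∀ c : Ω, V (algebraMap Ω 𝕃 c) ≤ 1) {x : 𝕃} (hx : V x < 1)
    {φ : Polynomial Ω} (h : φ.coeff 0 ≠ 0) : V (aeval x φ) = 1 := by
  rw [aeval_eq x φ]
  have h1 : V (aeval x φ.divX * x) < V (algebraMap Ω 𝕃 (φ.coeff 0)) := by
    rw [val_algebraMap_eq_one V hV h, map_mul]
    exact lt_of_le_of_lt (mul_le_of_le_one_left' (val_aeval_le_one V hV hx.le _)) hx
  rw [V.map_add_eq_of_lt_right h1, val_algebraMap_eq_one V hV h]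

/-- (1.1.7) -/
theorem linearIndependent_of_strictMono (hV : ∀ c : Ω, V (algebraMap Ω 𝕃 c) ≤ 1) {x : 𝕃}
    (hx : Transcendental Ω x) (hx1 : V x < 1) {n : ℕ} (z : Fin n → 𝕃)
    (hmono : StrictMono (fun i => V (z i))) (hlow : ∀ i, V x ≤ V (z i)) (hup : ∀ i, V (z i) < 1) :
    LinearIndependent Ω⟮x⟯ z := by
  classical
  have hx0 : x ≠ 0 := fun h => hx (h ▸ isAlgebraic_zero)
  have hVx0 : 0 < V x := zero_lt_iff.mpr ((Valuation.ne_zero_iff _).mpr hx0)
  refine linearIndependent_adjoin_of_polynomial hx z fun φ hrel => ?_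
  by_contra hcon
  rw [not_forall] at hcon
  let S : Finset (Fin n) := Finset.univ.filter fun i => (φ i).coeff 0 ≠ 0
  have hS : S.Nonempty := by
    obtain ⟨i, hi⟩ := hcon
    exact ⟨i, by simp [S, hi]⟩
  let j := S.max' hS
  have hj : (φ j).coeff 0 ≠ 0 := by
    have := S.max'_mem hS
    simpa [S] using this
  have hgt : ∀ i, j < i → (φ i).coeff 0 = 0 := by
    intro i hi
    by_contra h
    have : i ∈ S := by simp [S, h]
    exact absurd (S.le_max' i this) (not_le.mpr hi)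
  have hiso : aeval x (φ j) * z j = -∑ i ∈ Finset.univ.erase j, aeval x (φ i) * z i := by
    have h1 := Finset.add_sum_erase Finset.univ (fun i => aeval x (φ i) * z i) (Finset.mem_univ j)
    rw [hrel] at h1
    linear_combination h1
  have hzj0 : 0 < V (z j) := lt_of_lt_of_le hVx0 (hlow j)
  have h1 : V (aeval x (φ j) * z j) = V (z j) := by
    rw [map_mul, val_aeval_eq_one V hV hx1 hj, one_mul]
  have h2 : V (aeval x (φ j) * z j) < V (z j) := by
    rw [hiso, Valuation.map_neg]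
    refine V.map_sum_lt hzj0.ne' fun i hi => ?_
    have hij : i ≠ j := (Finset.mem_erase.mp hi).1
    rw [map_mul]
    rcases lt_or_gt_of_ne hij with h | h
    · calc V (aeval x (φ i)) * V (z i) ≤ 1 * V (z i) :=
            mul_le_mul' (val_aeval_le_one V hV hx1.le _) le_rfl
        _ = V (z i) := one_mul _
        _ < V (z j) := hmono h
    · have hzi0 : 0 < V (z i) := lt_of_lt_of_le hVx0 (hlow i)
      calc V (aeval x (φ i)) * V (z i) ≤ V x * V (z i) :=
            mul_le_mul' (val_aeval_le_of_coeff_zero V hV hx1.le (hgt i h)) le_rfl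
        _ < V x * 1 := by
            exact (mul_lt_mul_iff_right₀ hVx0).mpr (hup i)
        _ = V x := mul_one _
        _ ≤ V (z j) := hlow j
  rw [h1] at h2
  exact lt_irrefl _ h2

end DVR

/-- (1.1.6) every nontrivial valuation ring of `𝕃/Ω` is a DVR. -/
theorem exists_place_of_valuationSubring [FF1 Ω 𝕃] (A : ValuationSubring 𝕃)
    (hΩ : ∀ a : Ω, algebraMap Ω 𝕃 a ∈ A) (hA : A ≠ ⊤) :
    ∃ v : Place Ω 𝕃, v.toValuationSubring = A := by
  suffices h : IsPrincipalIdealRing A from ⟨⟨A, hΩ, hA, h⟩, rfl⟩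
  suffices h : WfDvdMonoid A from ((IsBezout.TFAE (R := A)).out 1 3).mpr h
  refine ⟨wellFounded_iff_isEmpty_descending_chain.mpr ⟨?_⟩⟩
  rintro ⟨f, hf⟩
  set V := A.valuation with hVdef
  have hV : ∀ c : Ω, V (algebraMap Ω 𝕃 c) ≤ 1 := fun c => (A.valuation_le_one_iff _).mpr (hΩ c)
  have hne : ∀ n, (f (n + 1) : 𝕃) ≠ 0 := by
    intro n
    have := (hf n).1
    simpa using this
  have hstep : ∀ n, V (f n : 𝕃) < V (f (n + 1) : 𝕃) := by
    intro n
    obtain ⟨-, y, hy, hfy⟩ := hf n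
    have hy1 : V (y : 𝕃) < 1 := (A.valuation_lt_one_iff y).mp (by
      rw [IsLocalRing.mem_maximalIdeal]; exact hy)
    have h0 : 0 < V (f (n + 1) : 𝕃) := zero_lt_iff.mpr ((Valuation.ne_zero_iff _).mpr (hne n))
    rw [hfy]
    push_cast
    rw [map_mul]
    calc V (f (n + 1) : 𝕃) * V (y : 𝕃) < V (f (n + 1) : 𝕃) * 1 :=
          (mul_lt_mul_iff_right₀ h0).mpr hy1
      _ = _ := mul_one _
  have hmono : StrictMono (fun n => V (f n : 𝕃)) := strictMono_nat_of_lt_succ hstep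
  have hlt1 : ∀ n, V (f n : 𝕃) < 1 :=
    fun n => lt_of_lt_of_le (hstep n) (A.valuation_le_one _)
  set x : 𝕃 := (f 1 : 𝕃) with hxdef
  have hx0 : x ≠ 0 := hne 0
  have hx : Transcendental Ω x := by
    intro halg
    have h1 := mem_valuationSubring_of_isAlgebraic A hΩ halg.inv
    have h2 := (A.valuation_le_one_iff _).mpr h1
    rw [map_inv₀] at h2
    have h3 : 0 < V x := zero_lt_iff.mpr ((Valuation.ne_zero_iff _).mpr hx0)
    have h4 := (inv_le_one₀ h3).mp h2
    exact absurd (hlt1 1) (not_lt.mpr h4)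
  have hfd := finiteDimensional_adjoin_of_transcendental hx
  let N := Module.finrank Ω⟮x⟯ 𝕃 + 1
  have hli := DVR.linearIndependent_of_strictMono V hV hx (hlt1 1)
    (fun i : Fin N => (f (i + 1) : 𝕃))
    (fun i j hij => hmono (by simpa using hij))
    (fun i => hmono.monotone (by omega)) (fun i => hlt1 _)
  have := hli.fintype_card_le_finrank
  simp [N] at this

end Fermat.Agent.S26
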