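import Fermat.Agent.S26.FF.Indep

/-! # S26 / M1-DivisorOf : Stichtenoth 1.3.4, principal divisors, zero and pole divisors. -/

set_option autoImplicit false

namespace Fermat.Agent.S26

open AlgebraicCurve IntermediateField Polynomial

variable {Ω 𝕃 : Type*} [Field Ω] [Field 𝕃] [Algebra Ω 𝕃]

/-- (1.3.4) from `sum_ord_mul_deg_le_finrank`, `deg_pos` (a finite set of zeros has at most `[𝕃 : Ω(x)]`
elements) and `ord_eq_zero_of_isAlgebraic`. -/
theorem finite_ord_pos [FF1 Ω 𝕃] {x : 𝕃} (hx : x ≠ 0) : {v : Place Ω 𝕃 | 0 < v.ord x}.Finite := by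
  classical
  by_cases hxt : Transcendental Ω x
  · by_contra hinf
    obtain ⟨t, ht, hcard⟩ := (Set.not_finite.mp hinf |> fun h => Set.Infinite.exists_subset_card_eq h
      (Module.finrank Ω⟮x⟯ 𝕃 + 1))
    have h1 := sum_ord_mul_deg_le_finrank hxt t (fun v hv => ht hv)
    have h2 : (t.card : ℤ) ≤ ∑ v ∈ t, v.ord x * (v.deg : ℤ) := by
      rw [Finset.card_eq_sum_ones, Nat.cast_sum]
      refine Finset.sum_le_sum fun v hv => ?_
      have h3 : 0 < v.ord x := ht hv
      have h4 : 0 < v.deg := deg_pos v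
      have h5 : (1 : ℤ) ≤ (v.deg : ℤ) := by exact_mod_cast h4
      push_cast
      nlinarith
    rw [hcard] at h2
    push_cast at h2
    omega
  · have hxa : IsAlgebraic Ω x := by
      by_contra h
      exact hxt h
    convert Set.finite_empty
    ext v
    simp only [Set.mem_ofPred_eq, Set.mem_empty_iff_false, iff_false, not_lt]
    rw [ord_eq_zero_of_isAlgebraic v hxa hx]

/-- (1.3.4) finitely many zeros and poles. -/
theorem finite_ord_ne_zero [FF1 Ω 𝕃] {x : 𝕃} (hx : x ≠ 0) : {v : Place Ω 𝕃 | v.ord x ≠ 0}.Finite := by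
  refine ((finite_ord_pos (Ω := Ω) hx).union (finite_ord_pos (Ω := Ω) (inv_ne_zero hx))).subset ?_
  intro v hv
  simp only [Set.mem_ofPred_eq] at hv
  simp only [Set.mem_union, Set.mem_ofPred_eq, v.ord_inv]
  omega

open Classical in
/-- The principal divisor. -/
noncomputable def divisorOf [FF1 Ω 𝕃] (x : 𝕃) : Divisor Ω 𝕃 :=
  if hx : x = 0 then 0 else
    Finsupp.ofSupportFinite (fun v => v.ord x) (by
      have := finite_ord_ne_zero (Ω := Ω) hx
      exact this.subset fun v hv => hv)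

theorem divisorOf_apply [FF1 Ω 𝕃] (x : 𝕃) (v : Place Ω 𝕃) : divisorOf x v = v.ord x := by
  unfold divisorOf
  split_ifs with hx
  · simp [hx]
  · rfl

theorem divisorOf_mul [FF1 Ω 𝕃] {x y : 𝕃} (hx : x ≠ 0) (hy : y ≠ 0) :
    divisorOf (Ω := Ω) (x * y) = divisorOf x + divisorOf y := by
  ext v
  simp [divisorOf_apply, v.ord_mul hx hy]

theorem divisorOf_inv [FF1 Ω 𝕃] (x : 𝕃) : divisorOf (Ω := Ω) x⁻¹ = - divisorOf x := by
  ext v
  simp [divisorOf_apply, v.ord_inv]

/-- the divisor of zeros `(x)₀`. -/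
noncomputable def zeroDivisor [FF1 Ω 𝕃] (x : 𝕃) : Divisor Ω 𝕃 :=
  (divisorOf x).mapRange (fun n => max 0 n) (by simp)

/-- the divisor of poles `(x)_∞`. -/
noncomputable def poleDivisor [FF1 Ω 𝕃] (x : 𝕃) : Divisor Ω 𝕃 :=
  (divisorOf x).mapRange (fun n => max 0 (-n)) (by simp)

theorem zeroDivisor_apply [FF1 Ω 𝕃] (x : 𝕃) (v : Place Ω 𝕃) : zeroDivisor x v = max 0 (v.ord x) := by
  simp [zeroDivisor, divisorOf_apply]

theorem poleDivisor_apply [FF1 Ω 𝕃] (x : 𝕃) (v : Place Ω 𝕃) : poleDivisor x v = max 0 (-v.ord x) := by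
  simp [poleDivisor, divisorOf_apply]

theorem divisorOf_eq_sub [FF1 Ω 𝕃] (x : 𝕃) :
    divisorOf (Ω := Ω) x = zeroDivisor x - poleDivisor x := by
  ext v
  simp only [Finsupp.sub_apply, divisorOf_apply, zeroDivisor_apply, poleDivisor_apply]
  omega

theorem poleDivisor_inv [FF1 Ω 𝕃] (x : 𝕃) : poleDivisor (Ω := Ω) x⁻¹ = zeroDivisor x := by
  ext v
  simp [zeroDivisor_apply, poleDivisor_apply, v.ord_inv]

theorem zeroDivisor_inv [FF1 Ω 𝕃] (x : 𝕃) : zeroDivisor (Ω := Ω) x⁻¹ = poleDivisor x := by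
  ext v
  simp [zeroDivisor_apply, poleDivisor_apply, v.ord_inv]

/-- the degree of a divisor as a `Finsupp.sum`. -/
theorem DivisorOf.degree_eq_sum (D : Divisor Ω 𝕃) :
    Divisor.degree D = D.sum fun v n => n * (v.deg : ℤ) := by
  simp [Divisor.degree, Finsupp.liftAddHom_apply]

theorem DivisorOf.support_zeroDivisor [FF1 Ω 𝕃] (x : 𝕃) :
    ((zeroDivisor (Ω := Ω) x).support : Set (Place Ω 𝕃)) = {v | 0 < v.ord x} := by
  ext v
  simp only [Finset.mem_coe, Finsupp.mem_support_iff, zeroDivisor_apply, Set.mem_ofPred_eq]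
  omega

/-- the degree of the zero divisor as a finite sum over its support. -/
theorem DivisorOf.degree_zeroDivisor_eq_sum [FF1 Ω 𝕃] (x : 𝕃) :
    Divisor.degree (zeroDivisor (Ω := Ω) x)
      = ∑ v ∈ (zeroDivisor (Ω := Ω) x).support, v.ord x * (v.deg : ℤ) := by
  rw [DivisorOf.degree_eq_sum, Finsupp.sum]
  refine Finset.sum_congr rfl fun v hv => ?_
  have h : 0 < v.ord x := by
    have : v ∈ ((zeroDivisor (Ω := Ω) x).support : Set (Place Ω 𝕃)) := hv
    rwa [DivisorOf.support_zeroDivisor] at this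
  rw [zeroDivisor_apply, max_eq_right h.le]

/-- the degree of the zero divisor, as the `finsum` of the final API. -/
theorem degree_zeroDivisor_eq_finsum [FF1 Ω 𝕃] (x : 𝕃) :
    Divisor.degree (zeroDivisor (Ω := Ω) x)
      = ∑ᶠ v : {v : Place Ω 𝕃 // 0 < v.ord x}, v.1.ord x * (v.1.deg : ℤ) := by
  rw [DivisorOf.degree_zeroDivisor_eq_sum]
  have h := finsum_set_coe_eq_finsum_mem (f := fun v : Place Ω 𝕃 => v.ord x * (v.deg : ℤ))
    {v : Place Ω 𝕃 | 0 < v.ord x}
  refine Eq.trans ?_ h.symm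
  rw [← DivisorOf.support_zeroDivisor, finsum_mem_coe_finset]

/-- (1.3.3) restated. -/
theorem degree_zeroDivisor_le [FF1 Ω 𝕃] {x : 𝕃} (hx : Transcendental Ω x) :
    Divisor.degree (zeroDivisor (Ω := Ω) x) ≤ Module.finrank Ω⟮x⟯ 𝕃 := by
  rw [DivisorOf.degree_zeroDivisor_eq_sum]
  refine sum_ord_mul_deg_le_finrank hx _ fun v hv => ?_
  have : v ∈ ((zeroDivisor (Ω := Ω) x).support : Set (Place Ω 𝕃)) := hv
  rwa [DivisorOf.support_zeroDivisor] at this

theorem degree_nonneg [FF1 Ω 𝕃] {D : Divisor Ω 𝕃} (h : ∀ v, 0 ≤ D v) : 0 ≤ Divisor.degree D := by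
  rw [DivisorOf.degree_eq_sum]
  exact Finset.sum_nonneg fun v _ => mul_nonneg (h v) (by positivity)

theorem degree_mono [FF1 Ω 𝕃] {D D' : Divisor Ω 𝕃} (h : ∀ v, D v ≤ D' v) :
    Divisor.degree D ≤ Divisor.degree D' := by
  have := degree_nonneg (D := D' - D) (fun v => by simpa using h v)
  rw [map_sub] at this
  omega

end Fermat.Agent.S26
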