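import Fermat.Agent.S26.FF.Alg
import Fermat.Agent.S24.FF.DegOne

/-! # S26 / M1-Residue : Stichtenoth 1.1.15: residue fields are finite over the constant field. -/

set_option autoImplicit false

namespace Fermat.Agent.S26

open AlgebraicCurve IntermediateField Polynomial

variable {Ω 𝕃 : Type*} [Field Ω] [Field 𝕃] [Algebra Ω 𝕃]

namespace Indep

open Fermat.Agent.S24.FF

theorem val_le_one_iff (v : Place Ω 𝕃) (f : 𝕃) :
    v.adicValuation f ≤ 1 ↔ f ∈ v.toValuationSubring := by
  rcases eq_or_ne f 0 with rfl | hf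
  · simp
  rw [← ord_nonneg_iff, adicValuation_eq_exp v hf, ← WithZero.exp_zero, WithZero.exp_le_exp]
  omega

theorem val_lt_one_of_ord_pos (v : Place Ω 𝕃) {f : 𝕃} (h : 0 < v.ord f) :
    v.adicValuation f < 1 := by
  have hf : f ≠ 0 := ne_zero_of_ord_ne_zero v h.ne'
  rw [adicValuation_eq_exp v hf, ← WithZero.exp_zero, WithZero.exp_lt_exp]
  omega

theorem val_eq_one_of_ord_eq_zero (v : Place Ω 𝕃) {f : 𝕃} (hf : f ≠ 0) (h : v.ord f = 0) :
    v.adicValuation f = 1 := by
  rw [adicValuation_eq_exp v hf, h]; simp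

theorem val_algebraMap_le_one (v : Place Ω 𝕃) (c : Ω) : v.adicValuation (algebraMap Ω 𝕃 c) ≤ 1 :=
  (val_le_one_iff v _).mpr (v.algebraMap_mem' c)

theorem val_aeval_le_one (v : Place Ω 𝕃) {x : 𝕃} (hx : v.adicValuation x ≤ 1) (φ : Polynomial Ω) :
    v.adicValuation (aeval x φ) ≤ 1 := by
  rw [val_le_one_iff] at hx ⊢
  have := Polynomial.aeval_algebraMap_apply 𝕃 (⟨x, hx⟩ : v.toValuationSubring) φ
  have h2 : algebraMap v.toValuationSubring 𝕃 ⟨x, hx⟩ = x := rfl
  rw [h2] at this
  rw [this]
  exact (aeval (⟨x, hx⟩ : v.toValuationSubring) φ).2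

theorem aeval_eq (x : 𝕃) (φ : Polynomial Ω) :
    aeval x φ = aeval x φ.divX * x + algebraMap Ω 𝕃 (φ.coeff 0) := by
  conv_lhs => rw [← Polynomial.divX_mul_X_add φ]
  simp

theorem val_aeval_sub_le (v : Place Ω 𝕃) {x : 𝕃} (hx : v.adicValuation x ≤ 1) (φ : Polynomial Ω) :
    v.adicValuation (aeval x φ - algebraMap Ω 𝕃 (φ.coeff 0)) ≤ v.adicValuation x := by
  rw [aeval_eq x φ, add_sub_cancel_right, map_mul]
  exact mul_le_of_le_one_left' (val_aeval_le_one v hx _)

theorem val_aeval_le_of_coeff_zero (v : Place Ω 𝕃) {x : 𝕃} (hx : v.adicValuation x ≤ 1)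
    {φ : Polynomial Ω} (h : φ.coeff 0 = 0) :
    v.adicValuation (aeval x φ) ≤ v.adicValuation x := by
  have := val_aeval_sub_le v hx φ
  rwa [h, map_zero, sub_zero] at this

theorem residue_eq_zero_of_val_lt_one (v : Place Ω 𝕃) (a : v.toValuationSubring)
    (h : v.adicValuation (a : 𝕃) < 1) : IsLocalRing.residue v.toValuationSubring a = 0 := by
  rw [IsLocalRing.residue_eq_zero_iff, IsLocalRing.mem_maximalIdeal, mem_nonunits_iff,
    ← v.adicValuation_coe_eq_one_iff]
  exact h.ne

/-- the residue step -/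
theorem coeff_zero_of_val_lt_one (v : Place Ω 𝕃) {x : 𝕃} (hx : v.adicValuation x < 1)
    {ι : Type*} [Fintype ι] (sv : ι → v.toValuationSubring)
    (hs : LinearIndependent Ω (fun i => IsLocalRing.residue v.toValuationSubring (sv i)))
    (z : ι → 𝕃) (hz : ∀ i, v.adicValuation (z i - sv i) < 1) (φ : ι → Polynomial Ω)
    (h : v.adicValuation (∑ i, aeval x (φ i) * z i) < 1) : ∀ i, (φ i).coeff 0 = 0 := by
  classical
  set V := v.adicValuation with hV
  have hz1 : ∀ i, V (z i) ≤ 1 := by
    intro i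
    have : z i = (z i - sv i) + sv i := by ring
    rw [this]
    refine (V.map_add _ _).trans (max_le (hz i).le ?_)
    exact (val_le_one_iff v _).mpr (sv i).2
  have key : V (∑ i, algebraMap Ω 𝕃 ((φ i).coeff 0) * (sv i : 𝕃)) < 1 := by
    have e : ∑ i, algebraMap Ω 𝕃 ((φ i).coeff 0) * (sv i : 𝕃)
        = (∑ i, aeval x (φ i) * z i)
          - ∑ i, ((aeval x (φ i) - algebraMap Ω 𝕃 ((φ i).coeff 0)) * z i
              + algebraMap Ω 𝕃 ((φ i).coeff 0) * (z i - sv i)) := by
      rw [← Finset.sum_sub_distrib]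
      refine Finset.sum_congr rfl fun i _ => ?_
      ring
    rw [e]
    refine lt_of_le_of_lt (V.map_sub _ _) (max_lt h ?_)
    refine V.map_sum_lt one_ne_zero fun i _ => ?_
    refine lt_of_le_of_lt (V.map_add _ _) (max_lt ?_ ?_)
    · rw [map_mul]
      calc V (aeval x (φ i) - algebraMap Ω 𝕃 ((φ i).coeff 0)) * V (z i)
          ≤ V x * 1 := mul_le_mul' (val_aeval_sub_le v hx.le _) (hz1 i)
        _ < 1 := by simpa using hx
    · rw [map_mul]
      calc V (algebraMap Ω 𝕃 ((φ i).coeff 0)) * V (z i - sv i)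
          ≤ 1 * V (z i - sv i) := mul_le_mul' (val_algebraMap_le_one v _) le_rfl
        _ < 1 := by simpa using hz i
  have hw : ((∑ i, (φ i).coeff 0 • sv i : v.toValuationSubring) : 𝕃)
      = ∑ i, algebraMap Ω 𝕃 ((φ i).coeff 0) * (sv i : 𝕃) := by
    rw [AddSubmonoidClass.coe_finsetSum]
    refine Finset.sum_congr rfl fun i _ => ?_
    rw [Algebra.smul_def]
    rfl
  have h0 := residue_eq_zero_of_val_lt_one v (∑ i, (φ i).coeff 0 • sv i) (by rw [hw]; exact key)
  rw [map_sum] at h0
  have h1 : ∑ i, (φ i).coeff 0 • IsLocalRing.residue v.toValuationSubring (sv i) = 0 := by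
    rw [← h0]
    refine Finset.sum_congr rfl fun i _ => ?_
    rw [Algebra.smul_def, Algebra.smul_def, map_mul]
    rfl
  exact Fintype.linearIndependent_iff.mp hs _ h1

end Indep

/-- (1.1.15) If `0 < v.ord x` and the residue classes of `z_i ∈ O_v` are linearly independent over `Ω`, then the
`z_i` are linearly independent over `Ω(x)`.  (Use `linearIndependent_adjoin_of_polynomial` and reduce a polynomial
relation modulo the maximal ideal: `φ_i(x) ≡ φ_i(0)`.) -/
theorem linearIndependent_of_residue (v : Place Ω 𝕃) {x : 𝕃} (hx : 0 < v.ord x) {ι : Type*} [Fintype ι]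
    (z : ι → v.toValuationSubring)
    (hz : LinearIndependent Ω (fun i => IsLocalRing.residue v.toValuationSubring (z i))) :
    LinearIndependent Ω⟮x⟯ (fun i => ((z i : v.toValuationSubring) : 𝕃)) := by
  refine linearIndependent_adjoin_of_polynomial (transcendental_of_ord_ne_zero v hx.ne') _
    fun φ hrel => ?_
  refine Indep.coeff_zero_of_val_lt_one v (Indep.val_lt_one_of_ord_pos v hx) z hz
    (fun i => (z i : 𝕃)) (fun i => by simp) φ ?_
  rw [hrel]
  simp

/-- (1.1.15) residue fields are finite over `Ω`. -/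
theorem finite_residueField [FF1 Ω 𝕃] (v : Place Ω 𝕃) : Module.Finite Ω v.ResidueField := by
  classical
  obtain ⟨x, hx⟩ := Fermat.Agent.S24.FF.exists_ord_eq_one v
  have hx' : 0 < v.ord x := by omega
  have hfd := finiteDimensional_adjoin_of_transcendental (transcendental_of_ord_ne_zero v hx'.ne')
  have hrank : Module.rank Ω v.ResidueField ≤ (Module.finrank Ω⟮x⟯ 𝕃 : ℕ) := by
    refine rank_le fun S hS => ?_
    have hlift : ∀ i : S, ∃ a : v.toValuationSubring,
        IsLocalRing.residue v.toValuationSubring a = (i : v.ResidueField) :=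
      fun i => IsLocalRing.residue_surjective _
    choose z hz using hlift
    have h1 : LinearIndependent Ω (fun i => IsLocalRing.residue v.toValuationSubring (z i)) := by
      have : (fun i => IsLocalRing.residue v.toValuationSubring (z i))
          = fun i : S => (i : v.ResidueField) := funext hz
      rw [this]
      exact hS
    have h2 := (linearIndependent_of_residue v hx' z h1).fintype_card_le_finrank
    simpa using h2
  exact Module.rank_lt_aleph0_iff.mp (lt_of_le_of_lt hrank Cardinal.natCast_lt_aleph0)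

theorem deg_pos [FF1 Ω 𝕃] (v : Place Ω 𝕃) : 0 < v.deg := by
  have := finite_residueField v
  exact Module.finrank_pos

end Fermat.Agent.S26
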