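import Fermat.Agent.S26.FF.Approx
import Fermat.Agent.S26.FF.Residue

/-! # S26 / M1-Indep : Stichtenoth 1.3.3. -/

set_option autoImplicit false
namespace Fermat.Agent.S26

open AlgebraicCurve IntermediateField Polynomial

variable {Ω 𝕃 : Type*} [Field Ω] [Field 𝕃] [Algebra Ω 𝕃]



open Fermat.Agent.S24.FF in
/-- (1.3.3) `∑_{v ∈ s} v(x) deg v ≤ [𝕃 : Ω(x)]` for a finite set `s` of zeros of `x`. -/
theorem sum_ord_mul_deg_le_finrank [FF1 Ω 𝕃] {x : 𝕃} (hx : Transcendental Ω x)
    (s : Finset (Place Ω 𝕃)) (hs : ∀ v ∈ s, 0 < v.ord x) :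
    ∑ v ∈ s, v.ord x * (v.deg : ℤ) ≤ Module.finrank Ω⟮x⟯ 𝕃 := by
  classical
  have hfd := finiteDimensional_adjoin_of_transcendental hx
  have hx0 : x ≠ 0 := fun h => hx (h ▸ isAlgebraic_zero)
  have ht : ∀ v : Place Ω 𝕃, ∃ t : 𝕃, t ≠ 0 ∧ ∀ w ∈ s, w.ord t = if w = v then 1 else 0 :=
    fun v => exists_ord_eq s _
  choose t ht0 ht using ht
  have hfin : ∀ v : Place Ω 𝕃, Module.Finite Ω v.ResidueField := finite_residueField
  let b : ∀ v : Place Ω 𝕃, Module.Basis (Fin v.deg) Ω v.ResidueField :=
    fun v => Module.finBasis Ω v.ResidueField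
  have hsv : ∀ (v : Place Ω 𝕃) (j : Fin v.deg), ∃ a : v.toValuationSubring,
      IsLocalRing.residue v.toValuationSubring a = b v j :=
    fun v j => IsLocalRing.residue_surjective _
  choose sv hsv using hsv
  have hzz : ∀ (v : Place Ω 𝕃) (j : Fin v.deg), ∃ y : 𝕃, ∀ w ∈ s,
      y = (if w = v then (sv v j : 𝕃) else 0) ∨
        (if w = v then 1 else w.ord x) ≤ w.ord (y - (if w = v then (sv v j : 𝕃) else 0)) :=
    fun v j => exists_approx s _ _
  choose zz hzz using hzz
  let ι := Σ v : s, Fin (v.1.ord x).toNat × Fin v.1.deg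
  let Z : ι → 𝕃 := fun i => t i.1 ^ (i.2.1 : ℕ) * zz i.1 i.2.2
  have hli : LinearIndependent Ω⟮x⟯ Z := by
    refine linearIndependent_adjoin_of_polynomial hx Z fun φ hrel => ?_
    let G : ∀ v : s, Fin (v.1.ord x).toNat → 𝕃 :=
      fun v a => ∑ j, aeval x (φ ⟨v, a, j⟩) * zz v j
    have hrel' : ∑ v : s, ∑ a : Fin (v.1.ord x).toNat, t v ^ (a : ℕ) * G v a = 0 := by
      rw [← hrel, Fintype.sum_sigma]
      refine Finset.sum_congr rfl fun v _ => ?_
      rw [Fintype.sum_prod_type]
      refine Finset.sum_congr rfl fun a _ => ?_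
      rw [Finset.mul_sum]
      refine Finset.sum_congr rfl fun j _ => ?_
      simp only [Z]
      ring
    have main : ∀ k : s, ∀ n : ℕ, ∀ c : Fin (k.1.ord x).toNat, (c : ℕ) = n →
        ∀ j, (φ ⟨k, c, j⟩).coeff 0 = 0 := by
      intro k n
      induction n using Nat.strong_induction_on with
      | _ n ih =>
      intro c hc
      set V := k.1.adicValuation with hV
      have hkx : 0 < k.1.ord x := hs k.1 k.2
      have hVx : V x < 1 := Indep.val_lt_one_of_ord_pos _ hkx
      have hu1 : k.1.ord (t k) = 1 := by simpa using ht k k.1 k.2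
      have hVu : V (t k) < 1 := Indep.val_lt_one_of_ord_pos _ (by omega)
      have hVu0 : 0 < V (t k) := zero_lt_iff.mpr ((Valuation.ne_zero_iff _).mpr (ht0 k))
      have hVxu : V x = V (t k) ^ (k.1.ord x).toNat := by
        rw [← map_pow, hV, adicValuation_eq_exp _ hx0,
          adicValuation_eq_exp _ (pow_ne_zero _ (ht0 k)), ord_pow, hu1,
          Int.toNat_of_nonneg hkx.le, mul_one]
      have hVxc : V x < V (t k) ^ (c : ℕ) := by
        rw [hVxu]
        exact pow_lt_pow_right_of_lt_one₀ hVu0 hVu c.2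
      have hVt : ∀ w : s, w ≠ k → V (t w) = 1 := by
        intro w hw
        refine Indep.val_eq_one_of_ord_eq_zero _ (ht0 w) ?_
        have := ht w k.1 k.2
        rwa [if_neg (fun h => hw (Subtype.ext h.symm))] at this
      have hVzz : ∀ w : s, w ≠ k → ∀ j, V (zz w j) ≤ V x := by
        intro w hw j
        have := hzz w j k.1 k.2
        rw [if_neg (fun h => hw (Subtype.ext h.symm)), if_neg (fun h => hw (Subtype.ext h.symm)),
          sub_zero] at this
        rcases this with h | h
        · rw [h]; simp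
        · by_cases h0 : zz w j = 0
          · rw [h0]; simp
          · exact (ord_le_ord_iff _ hx0 h0).mp h
      have hVzk : ∀ j, V (zz k j - sv k j) < 1 := by
        intro j
        have := hzz k j k.1 k.2
        rw [if_pos rfl, if_pos rfl] at this
        rcases this with h | h
        · rw [h]; simp
        · exact Indep.val_lt_one_of_ord_pos _ (by omega)
      have hVzk1 : ∀ j, V (zz k j) ≤ 1 := by
        intro j
        have : zz k j = (zz k j - sv k j) + sv k j := by ring
        rw [this]
        refine (V.map_add _ _).trans (max_le (hVzk j).le ?_)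
        exact (Indep.val_le_one_iff _ _).mpr (sv k j).2
      have hG_other : ∀ w : s, w ≠ k → ∀ a, V (G w a) ≤ V x := by
        intro w hw a
        refine V.map_sum_le fun j _ => ?_
        rw [map_mul]
        calc V (aeval x (φ ⟨w, a, j⟩)) * V (zz w j) ≤ 1 * V x :=
              mul_le_mul' (Indep.val_aeval_le_one _ hVx.le _) (hVzz w hw j)
          _ = V x := one_mul _
      have hG_k : ∀ a, V (G k a) ≤ 1 := by
        intro a
        refine V.map_sum_le fun j _ => ?_
        rw [map_mul]
        calc V (aeval x (φ ⟨k, a, j⟩)) * V (zz k j) ≤ 1 * 1 :=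
              mul_le_mul' (Indep.val_aeval_le_one _ hVx.le _) (hVzk1 j)
          _ = 1 := one_mul _
      have hG_small : ∀ a : Fin (k.1.ord x).toNat, a < c → V (G k a) ≤ V x := by
        intro a ha
        refine V.map_sum_le fun j _ => ?_
        rw [map_mul]
        calc V (aeval x (φ ⟨k, a, j⟩)) * V (zz k j) ≤ V x * 1 :=
              mul_le_mul' (Indep.val_aeval_le_of_coeff_zero _ hVx.le
                (ih a (by rw [← hc]; exact ha) a rfl j)) (hVzk1 j)
          _ = V x := mul_one _
      have hiso : t k ^ (c : ℕ) * G k c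
          = -(∑ a ∈ Finset.univ.erase c, t k ^ (a : ℕ) * G k a
              + ∑ w ∈ Finset.univ.erase k, ∑ a : Fin (w.1.ord x).toNat, t w ^ (a : ℕ) * G w a) := by
        have h1 := Finset.add_sum_erase Finset.univ (fun w : s => ∑ a : Fin (w.1.ord x).toNat, t w ^ (a : ℕ) * G w a)
          (Finset.mem_univ k)
        have h2 := Finset.add_sum_erase Finset.univ (fun a : Fin (k.1.ord x).toNat => t k ^ (a : ℕ) * G k a)
          (Finset.mem_univ c)
        rw [hrel', ← h2] at h1
        linear_combination h1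
      have hlt : V (t k ^ (c : ℕ) * G k c) < V (t k) ^ (c : ℕ) := by
        rw [hiso, Valuation.map_neg]
        have hne : V (t k) ^ (c : ℕ) ≠ 0 := (pow_pos hVu0 _).ne'
        refine lt_of_le_of_lt (V.map_add _ _) (max_lt ?_ ?_)
        · refine V.map_sum_lt hne fun a ha => ?_
          have hac : a ≠ c := (Finset.mem_erase.mp ha).1
          rw [map_mul, map_pow]
          rcases lt_or_gt_of_ne hac with h | h
          · calc V (t k) ^ (a : ℕ) * V (G k a) ≤ 1 * V x :=
                  mul_le_mul' (pow_le_one' hVu.le _) (hG_small a h)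
              _ = V x := one_mul _
              _ < _ := hVxc
          · calc V (t k) ^ (a : ℕ) * V (G k a) ≤ V (t k) ^ (a : ℕ) * 1 :=
                  mul_le_mul' le_rfl (hG_k a)
              _ = V (t k) ^ (a : ℕ) := mul_one _
              _ < _ := pow_lt_pow_right_of_lt_one₀ hVu0 hVu h
        · refine V.map_sum_lt hne fun w hw => ?_
          have hwk : w ≠ k := (Finset.mem_erase.mp hw).1
          refine V.map_sum_lt hne fun a _ => ?_
          rw [map_mul, map_pow, hVt w hwk, one_pow, one_mul]
          exact lt_of_le_of_lt (hG_other w hwk a) hVxc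
      have hGc : V (G k c) < 1 := by
        rw [map_mul, map_pow] at hlt
        by_contra hcon
        have : V (t k) ^ (c : ℕ) * 1 ≤ V (t k) ^ (c : ℕ) * V (G k c) :=
          mul_le_mul' le_rfl (not_lt.mp hcon)
        rw [mul_one] at this
        exact absurd hlt (not_lt.mpr this)
      refine Indep.coeff_zero_of_val_lt_one k.1 hVx (sv k) ?_ (zz k) hVzk
        (fun j => φ ⟨k, c, j⟩) hGc
      have : (fun i => IsLocalRing.residue k.1.toValuationSubring (sv k i)) = b k := by
        funext i; exact hsv k i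
      rw [this]
      exact (b k).linearIndependent
    rintro ⟨k, c, j⟩
    exact main k c c rfl j
  have hcard := hli.fintype_card_le_finrank
  have hc : Fintype.card ι = ∑ v : s, (v.1.ord x).toNat * v.1.deg := by
    simp only [ι, Fintype.card_sigma, Fintype.card_prod, Fintype.card_fin]
  have hsum : ∑ v ∈ s, v.ord x * (v.deg : ℤ) = ((∑ v : s, (v.1.ord x).toNat * v.1.deg : ℕ) : ℤ) := by
    rw [Nat.cast_sum, ← Finset.sum_coe_sort s]
    refine Finset.sum_congr rfl fun v _ => ?_
    rw [Nat.cast_mul, Int.toNat_of_nonneg (hs v.1 v.2).le]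
  rw [hsum, ← hc]
  exact_mod_cast hcard

end Fermat.Agent.S26
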