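import Fermat.Agent.S26.FF.DivisorOf
import Fermat.Agent.S26.FF.Exists

/-! # S26 / M1-LSpace : Stichtenoth 1.4.6 - 1.4.9: the spaces `L(D)`. -/

set_option autoImplicit false

namespace Fermat.Agent.S26

open AlgebraicCurve IntermediateField Polynomial

variable {Ω 𝕃 : Type*} [Field Ω] [Field 𝕃] [Algebra Ω 𝕃]

theorem LSpace_mono {D D' : Divisor Ω 𝕃} (h : ∀ v, D v ≤ D' v) : LSpace D ≤ LSpace D' := by
  intro f hf
  rcases hf with hf | hf
  · exact Or.inl hf
  · exact Or.inr fun v => by have := hf v; have := h v; omega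

/-- A nonzero `f ∈ L(D)` has no pole, so it is algebraic (`exists_ord_neg`), so it has no zero
(`ord_eq_zero_of_isAlgebraic`). -/
theorem LSpace_eq_bot_of_neg [FF1 Ω 𝕃] (D : Divisor Ω 𝕃) (h : ∀ v, D v ≤ 0) (h' : ∃ v, D v < 0) :
    LSpace D = ⊥ := by
  rw [eq_bot_iff]
  intro f hf
  rw [Submodule.mem_bot]
  by_contra hf0
  have hf' := hf.resolve_left hf0
  have halg : IsAlgebraic Ω f := by
    by_contra htr
    obtain ⟨v, hv⟩ := exists_ord_neg (Ω := Ω) (x := f) htr
    have := hf' v
    have := h v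
    omega
  obtain ⟨v, hv⟩ := h'
  have h1 := ord_eq_zero_of_isAlgebraic v halg hf0
  have := hf' v
  omega

/-- (1.4.8), one step, in a form that does not presuppose finiteness: there is an `Ω`-linear map
`L(D + v) → κ(v)`, `f ↦ (f t)(v)` with `v.ord t = D v + 1`, whose kernel is `L(D)`. -/
theorem exists_linearMap_LSpace_add_single (D : Divisor Ω 𝕃) (v : Place Ω 𝕃) :
    ∃ ψ : LSpace (D + Finsupp.single v 1) →ₗ[Ω] v.ResidueField,
      ∀ f : LSpace (D + Finsupp.single v 1), ψ f = 0 ↔ (f : 𝕃) ∈ LSpace D := by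
  classical
  obtain ⟨π, hπ⟩ := Fermat.Agent.S24.FF.exists_ord_eq_one v
  have hπ0 : π ≠ 0 := Fermat.Agent.S24.FF.ne_zero_of_ord_ne_zero v (by rw [hπ]; exact one_ne_zero)
  set t : 𝕃 := π ^ (D v + 1) with ht
  have ht0 : t ≠ 0 := zpow_ne_zero _ hπ0
  have hordt : v.ord t = D v + 1 := by rw [ht, v.ord_zpow, hπ, mul_one]
  have hmem : ∀ f : LSpace (D + Finsupp.single v 1), (f : 𝕃) * t ∈ v.toValuationSubring := by
    intro f
    rcases f.2 with hf | hf
    · rw [hf, zero_mul]; exact zero_mem _
    · by_cases hf0 : (f : 𝕃) = 0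
      · rw [hf0, zero_mul]; exact zero_mem _
      apply Fermat.Agent.S24.FF.mem_of_ord_nonneg
      rw [v.ord_mul hf0 ht0, hordt]
      have := hf v
      rw [Finsupp.add_apply, Finsupp.single_eq_same] at this
      omega
  let φ : LSpace (D + Finsupp.single v 1) →ₗ[Ω] v.toValuationSubring :=
    { toFun := fun f => ⟨(f : 𝕃) * t, hmem f⟩
      map_add' := fun f g => Subtype.ext (by simp [add_mul])
      map_smul' := fun c f => Subtype.ext (by
        simp only [Submodule.coe_smul, RingHom.id_apply]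
        rw [Algebra.smul_def, Algebra.smul_def]
        simp [mul_assoc]) }
  let ρ : v.toValuationSubring →ₗ[Ω] v.ResidueField :=
    (IsScalarTower.toAlgHom Ω v.toValuationSubring v.ResidueField).toLinearMap
  refine ⟨ρ.comp φ, fun f => ?_⟩
  have hρ : (ρ.comp φ) f = IsLocalRing.residue v.toValuationSubring ⟨(f : 𝕃) * t, hmem f⟩ := rfl
  rw [hρ]
  by_cases hf0 : (f : 𝕃) = 0
  · constructor
    · intro _; exact Or.inl hf0
    · intro _
      have : (⟨(f : 𝕃) * t, hmem f⟩ : v.toValuationSubring) = 0 := Subtype.ext (by simp [hf0])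
      rw [this, map_zero]
  have hne : (⟨(f : 𝕃) * t, hmem f⟩ : v.toValuationSubring) ≠ 0 := by
    intro h
    have := congrArg Subtype.val h
    exact mul_ne_zero hf0 ht0 this
  rw [Fermat.Agent.S24.FF.DegOne.residue_eq_zero_iff v hne]
  show 0 < v.ord ((f : 𝕃) * t) ↔ _
  rw [v.ord_mul hf0 ht0, hordt]
  have hf' := f.2.resolve_left hf0
  constructor
  · intro h
    refine Or.inr fun w => ?_
    by_cases hw : w = v
    · subst hw; omega
    · have := hf' w
      rw [Finsupp.add_apply, Finsupp.single_eq_of_ne (by exact hw), add_zero] at this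
      exact this
  · intro h
    have := (h.resolve_left hf0) v
    omega

theorem le_add_single (D : Divisor Ω 𝕃) (v : Place Ω 𝕃) :
    ∀ w, D w ≤ (D + Finsupp.single v 1 : Divisor Ω 𝕃) w := by
  classical
  intro w
  rw [Finsupp.add_apply]
  by_cases hw : w = v
  · subst hw; simp
  · rw [Finsupp.single_eq_of_ne (by exact hw)]; simp

/-- one step of the induction: finiteness and the dimension bound. -/
theorem finite_LSpace_add_single [FF1 Ω 𝕃] (D : Divisor Ω 𝕃) (v : Place Ω 𝕃)
    (hD : Module.Finite Ω (LSpace D)) :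
    Module.Finite Ω (LSpace (D + Finsupp.single v 1)) ∧
      Module.finrank Ω (LSpace (D + Finsupp.single v 1)) ≤ Module.finrank Ω (LSpace D) + v.deg := by
  obtain ⟨ψ, hψ⟩ := exists_linearMap_LSpace_add_single D v
  have := finite_residueField (Ω := Ω) v
  let ι : LSpace D →ₗ[Ω] LSpace (D + Finsupp.single v 1) :=
    Submodule.inclusion (LSpace_mono (le_add_single D v))
  have hι : Function.Injective ι := Submodule.inclusion_injective _
  have hker : LinearMap.ker ψ = LinearMap.range ι := by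
    ext f
    rw [LinearMap.mem_ker, hψ, LinearMap.mem_range]
    constructor
    · intro hf
      exact ⟨⟨f, hf⟩, Subtype.ext rfl⟩
    · rintro ⟨g, rfl⟩
      exact g.2
  have hfin : Module.Finite Ω (LSpace (D + Finsupp.single v 1)) := by
    rw [Module.finite_def]
    apply Submodule.fg_of_fg_map_of_fg_inf_ker ψ
    · exact IsNoetherian.noetherian _
    · rw [top_inf_eq, hker, ← Submodule.map_top]
      exact (Module.finite_def.mp hD).map ι
  refine ⟨hfin, ?_⟩
  have h1 := LinearMap.finrank_range_add_finrank_ker ψ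
  have h2 : Module.finrank Ω (LinearMap.range ψ) ≤ v.deg := Submodule.finrank_le _
  have h3 : Module.finrank Ω (LinearMap.ker ψ) = Module.finrank Ω (LSpace D) := by
    rw [hker]
    exact LinearMap.finrank_range_of_inj hι
  omega

/-- cast of an effective divisor. -/
noncomputable def castDiv : (Place Ω 𝕃 →₀ ℕ) →+ Divisor Ω 𝕃 :=
  Finsupp.mapRange.addMonoidHom (Nat.castAddMonoidHom ℤ)

theorem castDiv_apply (E : Place Ω 𝕃 →₀ ℕ) (v : Place Ω 𝕃) : castDiv E v = (E v : ℤ) := rfl

theorem castDiv_single (v : Place Ω 𝕃) (n : ℕ) :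
    castDiv (Finsupp.single v n) = Finsupp.single v (n : ℤ) := by
  simp [castDiv]

theorem exists_eq_add_castDiv {D D' : Divisor Ω 𝕃} (h : ∀ v, D v ≤ D' v) :
    ∃ E : Place Ω 𝕃 →₀ ℕ, D' = D + castDiv E := by
  refine ⟨(D' - D).mapRange Int.toNat (by simp), ?_⟩
  ext v
  rw [Finsupp.add_apply, castDiv_apply, Finsupp.mapRange_apply, Finsupp.sub_apply]
  have := h v
  omega

/-- the induction: finiteness and the dimension bound for `D ≤ D + E`. -/
theorem finite_LSpace_add_castDiv [FF1 Ω 𝕃] (E : Place Ω 𝕃 →₀ ℕ) : ∀ (D : Divisor Ω 𝕃),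
    Module.Finite Ω (LSpace D) →
    Module.Finite Ω (LSpace (D + castDiv E)) ∧
      (Module.finrank Ω (LSpace (D + castDiv E)) : ℤ)
        ≤ Module.finrank Ω (LSpace D) + Divisor.degree (castDiv E) := by
  induction E using Finsupp.induction_linear with
  | zero =>
    intro D hD
    rw [map_zero, add_zero, map_zero, add_zero]
    exact ⟨hD, le_rfl⟩
  | add E₁ E₂ h₁ h₂ =>
    intro D hD
    obtain ⟨hf1, hr1⟩ := h₁ D hD
    obtain ⟨hf2, hr2⟩ := h₂ _ hf1
    rw [map_add, ← add_assoc, map_add]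
    exact ⟨hf2, by omega⟩
  | single v n =>
    induction n with
    | zero =>
      intro D hD
      rw [Finsupp.single_zero, map_zero, add_zero, map_zero, add_zero]
      exact ⟨hD, le_rfl⟩
    | succ n ih =>
      intro D hD
      obtain ⟨hf1, hr1⟩ := ih D hD
      obtain ⟨hf2, hr2⟩ := finite_LSpace_add_single _ v hf1
      have e : D + castDiv (Finsupp.single v (n + 1)) =
          D + castDiv (Finsupp.single v n) + Finsupp.single v 1 := by
        rw [castDiv_single, castDiv_single, add_assoc, ← Finsupp.single_add]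
        push_cast
        rfl
      rw [e]
      refine ⟨hf2, ?_⟩
      have hdeg : Divisor.degree (castDiv (Finsupp.single v (n + 1))) =
          Divisor.degree (castDiv (Finsupp.single v n)) + (v.deg : ℤ) := by
        rw [castDiv_single, castDiv_single, Divisor.degree_single, Divisor.degree_single]
        push_cast
        ring
      rw [hdeg]
      have hr2' : (Module.finrank Ω (LSpace (D + castDiv (Finsupp.single v n) +
          Finsupp.single v 1)) : ℤ)
          ≤ Module.finrank Ω (LSpace (D + castDiv (Finsupp.single v n))) + v.deg := by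
        exact_mod_cast hr2
      linarith

/-- (1.4.9).  Induction from `LSpace_eq_bot_of_neg` using `exists_linearMap_LSpace_add_single`,
`finite_residueField` and `LSpace_mono`. -/
theorem finite_LSpace [FF1 Ω 𝕃] (D : Divisor Ω 𝕃) : Module.Finite Ω (LSpace D) := by
  classical
  obtain ⟨v₀⟩ := nonempty_place (Ω := Ω) (𝕃 := 𝕃)
  let D₀ : Divisor Ω 𝕃 := D.mapRange (fun n => min 0 n) (by simp) - Finsupp.single v₀ 1
  have hD₀ : ∀ v, D₀ v = min 0 (D v) - (Finsupp.single v₀ (1 : ℤ)) v := fun v => by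
    simp [D₀]
  have hs : ∀ v, 0 ≤ (Finsupp.single v₀ (1 : ℤ)) v := fun v => by
    by_cases hv : v = v₀
    · subst hv; simp
    · rw [Finsupp.single_eq_of_ne (by exact hv)]
  have hbot : LSpace D₀ = ⊥ := by
    apply LSpace_eq_bot_of_neg
    · intro v
      rw [hD₀]
      have := hs v
      omega
    · refine ⟨v₀, ?_⟩
      rw [hD₀, Finsupp.single_eq_same]
      omega
  have hfin0 : Module.Finite Ω (LSpace D₀) := by
    rw [hbot]
    infer_instance
  obtain ⟨E, hE⟩ := exists_eq_add_castDiv (D := D₀) (D' := D) (fun v => by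
    rw [hD₀]
    have := hs v
    omega)
  rw [hE]
  exact (finite_LSpace_add_castDiv E D₀ hfin0).1

/-- (1.4.8) -/
theorem finrank_LSpace_add_single_le [FF1 Ω 𝕃] (D : Divisor Ω 𝕃) (v : Place Ω 𝕃) :
    Module.finrank Ω (LSpace (D + Finsupp.single v 1)) ≤ Module.finrank Ω (LSpace D) + v.deg :=
  (finite_LSpace_add_single D v (finite_LSpace D)).2

theorem finrank_LSpace_mono [FF1 Ω 𝕃] {D D' : Divisor Ω 𝕃} (h : ∀ v, D v ≤ D' v) :
    Module.finrank Ω (LSpace D) ≤ Module.finrank Ω (LSpace D') := by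
  have := finite_LSpace (Ω := Ω) D'
  exact Submodule.finrank_mono (LSpace_mono h)

/-- (1.4.8) `dim L(D') - dim L(D) ≤ deg D' - deg D` for `D ≤ D'`. -/
theorem finrank_LSpace_le_of_le [FF1 Ω 𝕃] {D D' : Divisor Ω 𝕃} (h : ∀ v, D v ≤ D' v) :
    (Module.finrank Ω (LSpace D') : ℤ)
      ≤ Module.finrank Ω (LSpace D) + (Divisor.degree D' - Divisor.degree D) := by
  obtain ⟨E, rfl⟩ := exists_eq_add_castDiv h
  have := (finite_LSpace_add_castDiv E D (finite_LSpace D)).2
  rw [map_add]
  linarith

/-- `L(D) ≃ L(D + div x)`, `f ↦ f / x`. -/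
theorem finrank_LSpace_add_divisorOf [FF1 Ω 𝕃] (D : Divisor Ω 𝕃) {x : 𝕃} (hx : x ≠ 0) :
    Module.finrank Ω (LSpace (D + divisorOf x)) = Module.finrank Ω (LSpace D) := by
  let e : 𝕃 ≃ₗ[Ω] 𝕃 := (LinearEquiv.smulOfNeZero 𝕃 𝕃 x hx).restrictScalars Ω
  have he : ∀ f, e f = x * f := fun f => rfl
  have hmap : (LSpace (D + divisorOf x)).map (e : 𝕃 →ₗ[Ω] 𝕃) = LSpace D := by
    ext g
    rw [Submodule.mem_map]
    constructor
    · rintro ⟨f, hf, rfl⟩
      show e f ∈ _
      rw [he]
      rcases hf with hf | hf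
      · exact Or.inl (by rw [hf, mul_zero])
      · by_cases hf0 : f = 0
        · exact Or.inl (by rw [hf0, mul_zero])
        refine Or.inr fun v => ?_
        have := hf v
        rw [Finsupp.add_apply, divisorOf_apply] at this
        rw [v.ord_mul hx hf0]
        omega
    · intro hg
      refine ⟨x⁻¹ * g, ?_, ?_⟩
      · rcases hg with hg | hg
        · exact Or.inl (by rw [hg, mul_zero])
        · by_cases hg0 : g = 0
          · exact Or.inl (by rw [hg0, mul_zero])
          refine Or.inr fun v => ?_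
          have := hg v
          rw [Finsupp.add_apply, divisorOf_apply, v.ord_mul (inv_ne_zero hx) hg0, v.ord_inv]
          omega
      · show e (x⁻¹ * g) = g
        rw [he, mul_inv_cancel_left₀ hx]
  rw [← hmap]
  exact (LinearEquiv.finrank_map_eq e _).symm

end Fermat.Agent.S26
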