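import Fermat.Agent.S26.FF.Degree

/-! # S26 / M1-Riemann : Stichtenoth 1.4.14 - 1.4.17: Riemann's theorem. -/

set_option autoImplicit false

namespace Fermat.Agent.S26

open AlgebraicCurve IntermediateField Polynomial

variable {Ω 𝕃 : Type*} [Field Ω] [Field 𝕃] [Algebra Ω 𝕃]

namespace Riemann

/-- `deg D - dim L(D)` is monotone in `D`. -/
theorem defect_mono [FF1 Ω 𝕃] {D D' : Divisor Ω 𝕃} (h : ∀ v, D v ≤ D' v) :
    Divisor.degree D - Module.finrank Ω (LSpace D)
      ≤ Divisor.degree D' - Module.finrank Ω (LSpace D') := by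
  have := finrank_LSpace_le_of_le h
  linarith

/-- `deg D - dim L(D)` only depends on the class of `D`. -/
theorem defect_add_divisorOf [FF1 Ω 𝕃] (D : Divisor Ω 𝕃) {z : 𝕃} (hz : z ≠ 0) :
    Divisor.degree (D + divisorOf z) - Module.finrank Ω (LSpace (D + divisorOf z))
      = Divisor.degree D - Module.finrank Ω (LSpace D) := by
  rw [finrank_LSpace_add_divisorOf D hz, map_add, degree_divisorOf, add_zero]

theorem exists_ne_zero_mem_LSpace {D : Divisor Ω 𝕃}
    (h : 0 < Module.finrank Ω (LSpace D)) : ∃ z : 𝕃, z ≠ 0 ∧ z ∈ LSpace D := by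
  have hne : LSpace D ≠ ⊥ := by
    intro hb
    rw [hb, finrank_bot] at h
    exact lt_irrefl _ h
  obtain ⟨z, hz, hz0⟩ := Submodule.exists_mem_ne_zero_of_ne_bot hne
  exact ⟨z, hz0, hz⟩

/-- if `L(D' - D) ≠ 0` then the defect of `D` is at most that of `D'`. -/
theorem defect_le_of_finrank_sub_pos [FF1 Ω 𝕃] {D D' : Divisor Ω 𝕃}
    (h : 0 < Module.finrank Ω (LSpace (D' - D))) :
    Divisor.degree D - Module.finrank Ω (LSpace D)
      ≤ Divisor.degree D' - Module.finrank Ω (LSpace D') := by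
  obtain ⟨z, hz0, hz⟩ := exists_ne_zero_mem_LSpace h
  rw [← defect_add_divisorOf D' hz0]
  apply defect_mono
  intro v
  have := (hz.resolve_left hz0) v
  rw [Finsupp.sub_apply] at this
  rw [Finsupp.add_apply, divisorOf_apply]
  omega

end Riemann

open Riemann in
/-- (1.4.14) `deg D - dim L(D)` is bounded above (no hypothesis on the constant field). -/
theorem exists_riemann_bound [FF1 Ω 𝕃] :
    ∃ γ : ℤ, ∀ D : Divisor Ω 𝕃, Divisor.degree D - Module.finrank Ω (LSpace D) ≤ γ := by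
  obtain ⟨x, hx⟩ := exists_transcendental (Ω := Ω) (𝕃 := 𝕃)
  obtain ⟨C, hC0, hC⟩ := exists_le_finrank_LSpace_poleDivisor hx
  have hfd := finiteDimensional_adjoin_of_transcendental hx
  set n := Module.finrank Ω⟮x⟯ 𝕃 with hn
  have hnpos : 0 < n := Module.finrank_pos
  set B := poleDivisor (Ω := Ω) x with hB
  have hdB : Divisor.degree B = n := degree_poleDivisor hx
  set γ : ℤ := Divisor.degree C - n with hγ
  -- the bound for multiples of `B`
  have hlB : ∀ l : ℕ, Divisor.degree (l • B) - Module.finrank Ω (LSpace (l • B)) ≤ γ := by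
    intro l
    have h1 := defect_mono (D := l • B) (D' := l • B + C) (fun v => by
      rw [Finsupp.add_apply]
      have := hC0 v
      omega)
    have h2 : ((l : ℤ) + 1) * (n : ℤ) ≤ Module.finrank Ω (LSpace (l • B + C)) := by
      exact_mod_cast hC l
    rw [map_add, map_nsmul, nsmul_eq_mul, hdB] at h1
    rw [map_nsmul, nsmul_eq_mul, hdB, hγ]
    linarith
  refine ⟨γ, fun A => ?_⟩
  -- the positive part of `A`
  let A1 : Divisor Ω 𝕃 := A.mapRange (fun k => max 0 k) (by simp)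
  have hA1 : ∀ v, A1 v = max 0 (A v) := fun v => by simp [A1]
  have hAA1 : ∀ v, A v ≤ A1 v := fun v => by rw [hA1]; exact le_max_right _ _
  have hA10 : ∀ v, 0 ≤ A1 v := fun v => by rw [hA1]; exact le_max_left _ _
  refine (defect_mono hAA1).trans ?_
  obtain ⟨l, hl⟩ : ∃ l : ℕ, γ + Divisor.degree A1 + 1 ≤ (l : ℤ) :=
    ⟨(γ + Divisor.degree A1 + 1).toNat, Int.self_le_toNat _⟩
  refine le_trans (defect_le_of_finrank_sub_pos (D' := l • B) ?_) (hlB l)
  have h1 := finrank_LSpace_le_of_le (D := l • B - A1) (D' := l • B) (fun v => by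
    rw [Finsupp.sub_apply]
    have := hA10 v
    omega)
  have h2 := hlB l
  rw [map_sub] at h1
  rw [map_nsmul, nsmul_eq_mul, hdB] at h1 h2
  have h3 : (l : ℤ) ≤ l * n := by
    have : (1 : ℤ) ≤ n := by exact_mod_cast hnpos
    have hl0 : (0 : ℤ) ≤ l := by positivity
    nlinarith
  have : (0 : ℤ) < Module.finrank Ω (LSpace (l • B - A1)) := by linarith
  exact_mod_cast this

open Riemann in
/-- (1.4.14, 1.4.17) Riemann's theorem, for a full constant field (`L(0) = Ω`). -/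
theorem exists_genus [FF1 Ω 𝕃] (h0 : Module.finrank Ω (LSpace (0 : Divisor Ω 𝕃)) = 1) :
    ∃ (g : ℕ) (c : ℤ),
      (∀ D : Divisor Ω 𝕃, Divisor.degree D + 1 - g ≤ Module.finrank Ω (LSpace D)) ∧
      (∀ D : Divisor Ω 𝕃, c ≤ Divisor.degree D →
        (Module.finrank Ω (LSpace D) : ℤ) = Divisor.degree D + 1 - g) := by
  obtain ⟨γ, hγ⟩ := exists_riemann_bound (Ω := Ω) (𝕃 := 𝕃)
  obtain ⟨g', ⟨A0, hA0⟩, hmax⟩ := Int.exists_greatest_of_bdd
    (P := fun k : ℤ => ∃ D : Divisor Ω 𝕃,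
      Divisor.degree D - Module.finrank Ω (LSpace D) + 1 = k)
    ⟨γ + 1, by
      rintro z ⟨D, rfl⟩
      have := hγ D
      omega⟩
    ⟨0, 0, by rw [h0, map_zero]; norm_num⟩
  have hg0 : 0 ≤ g' := hmax 0 ⟨0, by rw [h0, map_zero]; norm_num⟩
  obtain ⟨g, rfl⟩ : ∃ g : ℕ, (g : ℤ) = g' := ⟨g'.toNat, Int.toNat_of_nonneg hg0⟩
  have hle : ∀ D : Divisor Ω 𝕃, Divisor.degree D + 1 - g ≤ Module.finrank Ω (LSpace D) := by
    intro D
    have := hmax _ ⟨D, rfl⟩
    omega
  refine ⟨g, Divisor.degree A0 + g, hle, fun A hA => ?_⟩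
  apply le_antisymm _ (hle A)
  have h1 := hle (A - A0)
  rw [map_sub] at h1
  have h2 : 0 < Module.finrank Ω (LSpace (A - A0)) := by
    have : (0 : ℤ) < Module.finrank Ω (LSpace (A - A0)) := by omega
    exact_mod_cast this
  have h3 := defect_le_of_finrank_sub_pos h2
  omega

end Fermat.Agent.S26
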