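import Fermat.Agent.S26.FF.Defs

/-! # S26 : transport of places along an isomorphism of fields over the constant field. -/

set_option autoImplicit false

namespace Fermat.Agent.S26

open AlgebraicCurve IsLocalRing

variable {Ω L L' : Type*} [Field Ω] [Field L] [Field L'] [Algebra Ω L] [Algebra Ω L']

namespace Transport

/-- the image valuation subring -/
def vmap (e : L ≃ₐ[Ω] L') (A : ValuationSubring L) : ValuationSubring L' :=
  A.comap (e.symm : L' ≃+* L).toRingHom

theorem mem_vmap (e : L ≃ₐ[Ω] L') (A : ValuationSubring L) (x : L') :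
    x ∈ vmap e A ↔ e.symm x ∈ A := Iff.rfl

theorem apply_mem_vmap (e : L ≃ₐ[Ω] L') (A : ValuationSubring L) (x : L) :
    e x ∈ vmap e A ↔ x ∈ A := by
  rw [mem_vmap, AlgEquiv.symm_apply_apply]

/-- `A ≃ e(A)` -/
def vequiv (e : L ≃ₐ[Ω] L') (A : ValuationSubring L) : A ≃+* vmap e A where
  toFun x := ⟨e x, (apply_mem_vmap e A x).2 x.2⟩
  invFun y := ⟨e.symm y, y.2⟩
  left_inv x := by ext; simp
  right_inv y := by ext; simp
  map_mul' x y := by ext; simp
  map_add' x y := by ext; simp

@[simp] theorem coe_vequiv (e : L ≃ₐ[Ω] L') (A : ValuationSubring L) (x : A) :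
    ((vequiv e A x : vmap e A) : L') = e x := rfl

@[simp] theorem coe_vequiv_symm (e : L ≃ₐ[Ω] L') (A : ValuationSubring L) (y : vmap e A) :
    (((vequiv e A).symm y : A) : L) = e.symm y := rfl

end Transport

open Transport

/-- transport of a place along `e : L ≃ₐ[Ω] L'` -/
def placeMap (e : L ≃ₐ[Ω] L') (v : Place Ω L) : Place Ω L' where
  toValuationSubring := vmap e v.toValuationSubring
  algebraMap_mem' a := by
    rw [mem_vmap, AlgEquiv.commutes]; exact v.algebraMap_mem' a
  ne_top' h := v.ne_top' <| by
    ext x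
    have : e x ∈ vmap e v.toValuationSubring := by rw [h]; exact ValuationSubring.mem_top _
    simpa [apply_mem_vmap] using this
  isPrincipalIdealRing' :=
    IsPrincipalIdealRing.of_surjective (vequiv e v.toValuationSubring : _ ≃+* _).toRingHom
      (vequiv e v.toValuationSubring).surjective

@[simp] theorem placeMap_toValuationSubring (e : L ≃ₐ[Ω] L') (v : Place Ω L) :
    (placeMap e v).toValuationSubring = vmap e v.toValuationSubring := rfl

theorem mem_placeMap (e : L ≃ₐ[Ω] L') (v : Place Ω L) (x : L') :
    x ∈ (placeMap e v).toValuationSubring ↔ e.symm x ∈ v.toValuationSubring := Iff.rfl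

theorem ord_placeMap (e : L ≃ₐ[Ω] L') (v : Place Ω L) (f : L) : (placeMap e v).ord (e f) = v.ord f := by
  rcases eq_or_ne f 0 with rfl | hf
  · simp
  obtain ⟨π, hπ⟩ := IsDiscreteValuationRing.exists_irreducible v.toValuationSubring
  obtain ⟨u, hu⟩ := v.exists_unit_mul_zpow hf hπ
  set n := v.ord f with hn
  let E : v.toValuationSubring ≃+* (placeMap e v).toValuationSubring := vequiv e v.toValuationSubring
  have hπ' : Irreducible (E π) := (MulEquiv.irreducible_iff E).mpr hπ
  have hu' : IsUnit (E (u : v.toValuationSubring)) := u.isUnit.map E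
  have hcoeu : ((hu'.unit : (placeMap e v).toValuationSubring) : L')
      = e ((u : v.toValuationSubring) : L) := by
    rw [IsUnit.unit_spec]; rfl
  have hcoeπ : ((E π : (placeMap e v).toValuationSubring) : L') = e (π : L) := rfl
  have key : e f = ((hu'.unit : (placeMap e v).toValuationSubring) : L')
      * (((E π : (placeMap e v).toValuationSubring) : L') ^ n) := by
    rw [hcoeu, hcoeπ]
    conv_lhs => rw [hu]
    rw [map_mul, map_zpow₀]
  rw [key, (placeMap e v).ord_unit_smul_zpow hu'.unit hπ' n]

theorem ord_placeMap' (e : L ≃ₐ[Ω] L') (v : Place Ω L) (f : L') :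
    (placeMap e v).ord f = v.ord (e.symm f) := by
  rw [← ord_placeMap e v (e.symm f), AlgEquiv.apply_symm_apply]

theorem placeMap_symm_placeMap (e : L ≃ₐ[Ω] L') (v : Place Ω L) : placeMap e.symm (placeMap e v) = v := by
  apply Place.ext
  ext x
  simp [mem_vmap]

theorem placeMap_placeMap_symm (e : L ≃ₐ[Ω] L') (v : Place Ω L') :
    placeMap e (placeMap e.symm v) = v := by
  apply Place.ext
  ext x
  simp [mem_vmap]

/-- the bijection on places -/
def placeEquiv (e : L ≃ₐ[Ω] L') : Place Ω L ≃ Place Ω L' where
  toFun := placeMap e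
  invFun := placeMap e.symm
  left_inv := placeMap_symm_placeMap e
  right_inv := placeMap_placeMap_symm e

@[simp] theorem placeEquiv_apply (e : L ≃ₐ[Ω] L') (v : Place Ω L) : placeEquiv e v = placeMap e v := rfl

/-- `O_v ≃ₐ[Ω] O_{e v}` -/
def placeRingEquiv (e : L ≃ₐ[Ω] L') (v : Place Ω L) :
    v.toValuationSubring ≃ₐ[Ω] (placeMap e v).toValuationSubring :=
  AlgEquiv.ofRingEquiv (f := vequiv e v.toValuationSubring) (fun a => by
    apply Subtype.ext
    show e (algebraMap Ω L a) = algebraMap Ω L' a
    exact e.commutes a)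

@[simp] theorem coe_placeRingEquiv (e : L ≃ₐ[Ω] L') (v : Place Ω L) (x : v.toValuationSubring) :
    ((placeRingEquiv e v x : (placeMap e v).toValuationSubring) : L') = e x := rfl

/-- the induced isomorphism of residue fields -/
noncomputable def placeResEquiv (e : L ≃ₐ[Ω] L') (v : Place Ω L) :
    v.ResidueField ≃+* (placeMap e v).ResidueField :=
  IsLocalRing.ResidueField.mapEquiv (placeRingEquiv e v).toRingEquiv

theorem placeResEquiv_residue (e : L ≃ₐ[Ω] L') (v : Place Ω L) (x : v.toValuationSubring) :
    placeResEquiv e v (residue _ x) = residue _ (placeRingEquiv e v x) := rfl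

theorem deg_placeMap (e : L ≃ₐ[Ω] L') (v : Place Ω L) : (placeMap e v).deg = v.deg := by
  unfold Place.deg
  symm
  refine Algebra.finrank_eq_of_equiv_equiv (RingEquiv.refl Ω) (placeResEquiv e v) ?_
  ext a
  show algebraMap Ω (placeMap e v).ResidueField a
    = placeResEquiv e v (algebraMap Ω v.ResidueField a)
  rw [IsScalarTower.algebraMap_apply Ω v.toValuationSubring v.ResidueField,
    IsScalarTower.algebraMap_apply Ω (placeMap e v).toValuationSubring (placeMap e v).ResidueField,
    IsLocalRing.ResidueField.algebraMap_eq, IsLocalRing.ResidueField.algebraMap_eq,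
    placeResEquiv_residue, AlgEquiv.commutes]

end Fermat.Agent.S26
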